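/-
Programme JAC, S27 track, chapter Final27 (helper1): **the final interface of S27**.

The frozen S27 statement `#Pic⁰(K, F)[ℓ^k] = ℓ^(2 g k)` from three named statements:

* `S26Statement K` : the frozen S26 statement (torsion count of an abelian scheme over `K`);
* `JacPackage K F` : a Jacobian of the function field `F / K` (one universe): a commutative group
  scheme `J / K` which is an abelian scheme of relative dimension `genusFF K F`, together with an
  additive bijection `J(K) ≃ Pic⁰(K, F)`;
* `TransportStatement` : invariance of the count and of the genus under isomorphisms of pairs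
  `(K, F) ≃ (K', F')` in arbitrary universes (to reduce the two-universe statement to one universe).

Everything here is formal; the imports are Prelude definition modules only.
-/
import Mathlib
import Fermat.Prelude.Def_AlgebraicCurve_DivisorClassGroup
import Fermat.Prelude.Def_AlgebraicCurve_IsCurveOver
import Fermat.Prelude.Def_AlgebraicCurve_Repartitions
import Fermat.Prelude.Def_JacJ1Iface
import Fermat.Prelude.Def_GoodReductionJacobian_RelativeGroupLawKernel

set_option autoImplicit false

open CategoryTheory CategoryTheory.Limits AlgebraicGeometry NeronModelInfra GoodReductionJacobian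
open AlgebraicCurve

universe u u₁ u₂

namespace Fermat.Agent.JAC.Final27.Skeleton1

/-! ### The three statements -/

/-- The frozen S26 statement over the field `K`, as a hypothesis. -/
def S26Statement (K : Type u) [Field K] [IsAlgClosed K] : Prop :=
  ∀ {A : Scheme.{u}} (f : A ⟶ Spec (CommRingCat.of K)) (L : RelativeGroupLaw K f)
    (_ : L.IsCommutative) (_ : AbelianSchemePropertyBundle K f) (g : ℕ)
    [SmoothOfRelativeDimension g f] (n : ℕ) (_ : (n : K) ≠ 0),
    Nat.card {x : SchemeHomOver (𝟙 (Spec (CommRingCat.of K))) f //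
      L.IsTorsionPoint (𝟙 (Spec (CommRingCat.of K))) n x} = n ^ (2 * g)

/-- **Jacobian package** of a function field `F / K` (one universe): a commutative group scheme
`J / K`, abelian scheme of relative dimension `genusFF K F`, whose group of `K`-points is
additively in bijection with `Pic⁰(K, F)`. -/
def JacPackage (K F : Type u) [Field K] [Field F] [Algebra K F] : Prop :=
  ∃ (J : Scheme.{u}) (f : J ⟶ Spec (CommRingCat.of K)) (L : RelativeGroupLaw K f),
    L.IsCommutative ∧ AbelianSchemePropertyBundle K f ∧
    SmoothOfRelativeDimension (genusFF K F) f ∧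
    ∃ e : SchemeHomOver (𝟙 (Spec (CommRingCat.of K))) f ≃ Pic0 K F,
      ∀ x y, e (L.mul (𝟙 (Spec (CommRingCat.of K))) x y) = e x + e y

/-- **Transport statement**: the torsion counts and the genus only depend on the isomorphism
class of the pair `(K, F)` (any universes), and the S27 hypotheses are stable under
isomorphism. -/
def TransportStatement : Prop :=
  ∀ (K : Type u₁) (F : Type u₂) (K' F' : Type (max u₁ u₂)) [Field K] [Field F] [Algebra K F]
    [Field K'] [Field F'] [Algebra K' F'] (σ : K ≃+* K') (τ : F ≃+* F')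
    (_ : ∀ a : K, τ (algebraMap K F a) = algebraMap K' F' (σ a)),
    (∀ n : ℕ, Nat.card (Pic0.torsion K F n) = Nat.card (Pic0.torsion K' F' n)) ∧
    genusFF K F = genusFF K' F' ∧
    (IsCurveOver K F → IsCurveOver K' F') ∧
    (Algebra.EssFiniteType K F → Algebra.EssFiniteType K' F')

/-! ### Consequences of a Jacobian package -/

section Package

variable {K F : Type u} [Field K] [Field F] [Algebra K F]

variable {J : Scheme.{u}} {f : J ⟶ Spec (CommRingCat.of K)} (L : RelativeGroupLaw K f)
  (e : SchemeHomOver (𝟙 (Spec (CommRingCat.of K))) f ≃ Pic0 K F)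
  (he : ∀ x y, e (L.mul (𝟙 (Spec (CommRingCat.of K))) x y) = e x + e y)

include he

theorem map_one : e (L.one (𝟙 (Spec (CommRingCat.of K)))) = 0 := by
  have h := he (L.one _) (L.one _)
  rw [L.one_mul] at h
  exact left_eq_add.mp h

theorem map_nsmul (n : ℕ) (x : SchemeHomOver (𝟙 (Spec (CommRingCat.of K))) f) :
    e (L.nsmul (𝟙 (Spec (CommRingCat.of K))) n x) = n • e x := by
  induction n with
  | zero => rw [RelativeGroupLaw.nsmul_zero, map_one L e he, zero_nsmul]
  | succ n ih => rw [RelativeGroupLaw.nsmul_succ, he, ih, succ_nsmul]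

theorem isTorsionPoint_iff (n : ℕ) (x : SchemeHomOver (𝟙 (Spec (CommRingCat.of K))) f) :
    L.IsTorsionPoint (𝟙 (Spec (CommRingCat.of K))) n x ↔ e x ∈ Pic0.torsion K F n := by
  rw [Pic0.mem_torsion, natCast_zsmul, ← map_nsmul L e he, ← map_one L e he]
  exact e.injective.eq_iff.symm

/-- The frozen S26 count for `(J, L)` is the number of `n`-torsion classes. -/
theorem natCard_isTorsionPoint_eq (n : ℕ) :
    Nat.card {x : SchemeHomOver (𝟙 (Spec (CommRingCat.of K))) f //
      L.IsTorsionPoint (𝟙 (Spec (CommRingCat.of K))) n x} =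
    Nat.card (Pic0.torsion K F n) :=
  Nat.card_congr (e.subtypeEquiv fun x => isTorsionPoint_iff L e he n x)

/-- Divisibility of `Pic⁰` from divisibility of `J(K)`. -/
theorem nsmul_surjective_of_points (n : ℕ)
    (hdiv : ∀ y : SchemeHomOver (𝟙 (Spec (CommRingCat.of K))) f,
      ∃ x, L.nsmul (𝟙 (Spec (CommRingCat.of K))) n x = y) (c : Pic0 K F) :
    ∃ d : Pic0 K F, n • d = c := by
  obtain ⟨x, hx⟩ := hdiv (e.symm c)
  refine ⟨e x, ?_⟩
  rw [← map_nsmul L e he, hx, Equiv.apply_symm_apply]

end Package

/-! ### S27 in one universe -/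

section OneUniverse

variable {K F : Type u} [Field K] [Field F] [Algebra K F] [IsAlgClosed K]

/-- **The torsion count from S26 and a Jacobian package.** -/
theorem natCard_torsion_eq_of_package (h26 : S26Statement K) (hJ : JacPackage K F) (n : ℕ)
    (hn : (n : K) ≠ 0) : Nat.card (Pic0.torsion K F n) = n ^ (2 * genusFF K F) := by
  obtain ⟨J, f, L, hc, hA, hsm, e, he⟩ := hJ
  rw [← natCard_isTorsionPoint_eq L e he n]
  exact h26 f L hc hA (genusFF K F) n hn

/-- **S27 in one universe** from S26 and a Jacobian package. -/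
theorem s27_of_package [CharZero K] (h26 : S26Statement K) (hJ : JacPackage K F)
    (ℓ : ℕ) [hℓ : Fact ℓ.Prime] (k : ℕ) :
    Nat.card (Pic0.torsion K F (ℓ ^ k)) = ℓ ^ (2 * genusFF K F * k) := by
  have hn : ((ℓ ^ k : ℕ) : K) ≠ 0 := by
    rw [Nat.cast_ne_zero]
    exact pow_ne_zero k hℓ.out.ne_zero
  rw [natCard_torsion_eq_of_package h26 hJ (ℓ ^ k) hn, ← pow_mul]
  congr 1
  ring

end OneUniverse

/-- The existence of Jacobian packages for all function fields of curves in the universe `u`. -/
def PackageStatement : Prop :=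
  ∀ (K F : Type u) [Field K] [Field F] [Algebra K F] [IsAlgClosed K] [CharZero K]
    [IsCurveOver K F] [Algebra.EssFiniteType K F], JacPackage K F

/-- The S27 statement in one universe. -/
def S27OneUniverse : Prop :=
  ∀ (K F : Type u) [Field K] [Field F] [Algebra K F] [IsAlgClosed K] [CharZero K]
    [IsCurveOver K F] [Algebra.EssFiniteType K F] (ℓ : ℕ) [Fact ℓ.Prime] (k : ℕ),
    Nat.card (Pic0.torsion K F (ℓ ^ k)) = ℓ ^ (2 * genusFF K F * k)

theorem s27OneUniverse_of_statements (h26 : ∀ (K : Type u) [Field K] [IsAlgClosed K],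
    S26Statement K) (hpkg : PackageStatement.{u}) : S27OneUniverse.{u} := by
  intro K F _ _ _ _ _ _ _ ℓ _ k
  exact s27_of_package (h26 K) (hpkg K F) ℓ k

/-! ### The two-universe statement -/

/-- Algebraic closedness is invariant under ring isomorphisms (any universes). -/
theorem isAlgClosed_of_ringEquiv {K : Type u₁} {K' : Type u₂} [Field K] [Field K']
    [IsAlgClosed K] (σ : K ≃+* K') : IsAlgClosed K' := by
  refine IsAlgClosed.of_exists_root K' fun p _ hirr => ?_
  have hdeg : (p.map (σ.symm : K' →+* K)).degree ≠ 0 := by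
    rw [Polynomial.degree_map]
    exact (Polynomial.degree_pos_of_irreducible hirr).ne'
  obtain ⟨a, ha⟩ := IsAlgClosed.exists_root (p.map (σ.symm : K' →+* K)) hdeg
  refine ⟨σ a, ?_⟩
  have h := congrArg σ ha
  rw [Polynomial.eval_map, map_zero] at h
  have h2 := Polynomial.hom_eval₂ p (σ.symm : K' →+* K) (σ : K →+* K') a
  have h3 : (σ : K →+* K').comp (σ.symm : K' →+* K) = RingHom.id K' := by
    ext x
    simp
  rw [h3, Polynomial.eval₂_id] at h2
  rw [← h]
  exact h2.symm

/-- **The frozen S27 statement** from the one-universe statement in the universe `max u₁ u₂` and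
the transport statement. -/
theorem s27_of_oneUniverse (h1 : S27OneUniverse.{max u₁ u₂})
    (hU : TransportStatement.{u₁, u₂})
    (K : Type u₁) (F : Type u₂) [Field K] [Field F] [Algebra K F] [IsAlgClosed K] [CharZero K]
    [IsCurveOver K F] [Algebra.EssFiniteType K F] (ℓ : ℕ) [Fact ℓ.Prime] (k : ℕ) :
    Nat.card (Pic0.torsion K F (ℓ ^ k)) = ℓ ^ (2 * genusFF K F * k) := by
  -- the lifted pair
  let K' : Type (max u₁ u₂) := ULift.{u₂} K
  let F' : Type (max u₁ u₂) := ULift.{u₁} F
  let σ : K ≃+* K' := ULift.ringEquiv.symm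
  let τ : F ≃+* F' := ULift.ringEquiv.symm
  let _ : Algebra K' F' := ((τ : F →+* F').comp ((algebraMap K F).comp (σ.symm : K' →+* K))).toAlgebra
  have hcomp : ∀ a : K, τ (algebraMap K F a) = algebraMap K' F' (σ a) := by
    intro a
    change τ (algebraMap K F a) = τ (algebraMap K F (σ.symm (σ a)))
    rw [RingEquiv.symm_apply_apply]
  obtain ⟨hcard, hgen, hcurve, hfin⟩ := hU K F K' F' σ τ hcomp
  have : IsAlgClosed K' := isAlgClosed_of_ringEquiv σ
  have : CharZero K' := (RingHom.charZero_iff (σ : K →+* K').injective).mp inferInstance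
  have : IsCurveOver K' F' := hcurve inferInstance
  have : Algebra.EssFiniteType K' F' := hfin inferInstance
  rw [hcard, hgen]
  exact h1 K' F' ℓ k

/-- **The frozen S27 statement from the three statements.** -/
theorem s27_of_statements
    (h26 : ∀ (K : Type (max u₁ u₂)) [Field K] [IsAlgClosed K], S26Statement K)
    (hpkg : PackageStatement.{max u₁ u₂}) (hU : TransportStatement.{u₁, u₂})
    (K : Type u₁) (F : Type u₂) [Field K] [Field F] [Algebra K F] [IsAlgClosed K] [CharZero K]
    [IsCurveOver K F] [Algebra.EssFiniteType K F] (ℓ : ℕ) [Fact ℓ.Prime] (k : ℕ) :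
    Nat.card (Pic0.torsion K F (ℓ ^ k)) = ℓ ^ (2 * genusFF K F * k) :=
  s27_of_oneUniverse (s27OneUniverse_of_statements h26 hpkg) hU K F ℓ k

end Fermat.Agent.JAC.Final27.Skeleton1
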