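/-
Programme JAC, S27 track, chapter Final27 (helper1): a Jacobian package (`Skeleton1.JacPackage`)
can be transported along a `K`-isomorphism of function fields (by helper9's `FF/Transport9`).
-/
import Fermat.Agent.JAC.Final27.Skeleton1
import Fermat.Agent.JAC.FF.Transport9

set_option autoImplicit false

open CategoryTheory AlgebraicGeometry NeronModelInfra GoodReductionJacobian AlgebraicCurve

universe u

namespace Fermat.Agent.JAC.Final27.Congr1

open Fermat.Agent.JAC.Final27.Skeleton1 Fermat.Agent.JAC.FF.Transport9

/-- Transport of a Jacobian package along an isomorphism of pairs over the same field `K`. -/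
theorem jacPackage_of_fieldIso {K F F' : Type u} [Field K] [Field F] [Algebra K F] [Field F']
    [Algebra K F'] (e : FieldIso K F' K F) (h : JacPackage K F') : JacPackage K F := by
  obtain ⟨J, f, L, hc, hA, hsm, e₀, he₀⟩ := h
  refine ⟨J, f, L, hc, hA, ?_, e₀.trans e.pic0Equiv.toEquiv, fun x y => ?_⟩
  · rw [← e.genusFF_eq]
    exact hsm
  · rw [Equiv.trans_apply, Equiv.trans_apply, Equiv.trans_apply, he₀]
    exact map_add e.pic0Equiv _ _

/-- Transport of a Jacobian package along a `K`-algebra isomorphism of function fields. -/
theorem jacPackage_of_algEquiv {K F F' : Type u} [Field K] [Field F] [Algebra K F] [Field F']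
    [Algebra K F'] (τ : F' ≃ₐ[K] F) (h : JacPackage K F') : JacPackage K F :=
  jacPackage_of_fieldIso (FieldIso.ofAlgEquiv τ) h

end Fermat.Agent.JAC.Final27.Congr1
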