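/-
Programme JAC, S27 track, brick C6 (helper38): **the Jacobian package of a function field from the
S25 chain**.

* `chainLaw hdeg S rep`: the relative group law of a scheme `J` representing the degree-zero cut,
  for the group structures of the model `RelModel33.relModel hdeg S` (helper85's `jacLaw`).
* `jacPackage_of_block`: for CURVE data `(A0, A1, A01; t, s)` over an algebraically closed field `k`
  with a scheme-level dictionary `S`, additivity of the degree `hdeg`, a representing scheme `rep`
  with the five properties `JacData27.JacProps`, the Čech genus datum (`h`, `hs`, `hker`, `hg`) and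
  the points dictionary `hpts` (C5c): `Skeleton1.JacPackage k (FF k A01 k)`.
* `ChainStatement`, `GenusStatement`, `PointsStatement`: the three inputs for the S25 curve with
  its two-chart data `D : TwoChartData c`, and
  `packageStatement_of_statements : Skeleton1.PackageStatement`.
-/
import Mathlib
import Fermat.Agent.JAC.Final27.Congr1
import Fermat.Agent.JAC.Final.JacData27
import Fermat.Agent.JAC.FF.JacGroupLaw85
import Fermat.Agent.JAC.Tangent.JacTangent70
import Fermat.Agent.JAC.Fibre.PicZeroFibre38
import Fermat.Agent.JAC.FF.CurveFunctionField9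

set_option autoImplicit false
set_option linter.unusedSectionVars false
set_option linter.style.haveILetI false

universe u

open CategoryTheory Limits Opposite AlgebraicGeometry AlgebraicGeometry.RelPicard NeronModelInfra
  GoodReductionJacobian AlgebraicCurve Polynomial TensorProduct

namespace Fermat.Agent.JAC.Final27.Package38

open Fermat.Agent.JAC.Repr.Wiring10 Fermat.Agent.JAC.Repr.RelModel10
  Fermat.Agent.JAC.Repr.Jacobian10 Fermat.Agent.JAC.Grp.OverAff6
  Fermat.Agent.JAC.AE0.DegZero35 Fermat.Agent.JAC.AE0.Transfer35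
  Fermat.Agent.JAC.Glue.SmallClasses23
  Fermat.Agent.JAC.Core.Defs36 Fermat.Agent.JAC.Core.AlgAtlas36 Fermat.Agent.JAC.Core.Degree36
  Fermat.Agent.JAC.Final.SchemeDict36 Fermat.Agent.JAC.Final.RelModel33
  Fermat.Agent.JAC.Final.DictOfRelModel10 Fermat.Agent.JAC.Final.JacData27
  Fermat.Agent.JAC.FF.JacGroupLaw85 Fermat.Agent.JAC.Tangent.JacTangent70
  Fermat.Agent.JAC.Fibre.ConstExt37 Fermat.Agent.JAC.Fibre.PicZeroFibre38
  Fermat.Agent.JAC.Final27.Skeleton1
open scoped Fermat.Agent.JAC.Core.ConstFamily36

/-! ### The package for CURVE data -/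

section Block

variable {k : Type u} [Field k] {C : Scheme.{u}} {c : C ⟶ Spec (CommRingCat.of k)}
  {ε : SchemeHomOver (𝟙 (Spec (CommRingCat.of k))) c}
  {A0 A1 A01 : Type u} [CommRing A0] [CommRing A1] [CommRing A01]
  [Algebra k A0] [Algebra k A1] [Algebra k A01] [Algebra A0 A01] [Algebra A1 A01]
  [IsScalarTower k A0 A01] [IsScalarTower k A1 A01] {t : A0} {s : A1}
  [IsLocalization.Away t A01] [IsLocalization.Away s A01]
  {e : A01 →ₐ[k] k} {d : FibreDegree c}

/-- The tautological embedding of the model `relModel hdeg S` into the classes of line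
diagrams. -/
noncomputable def clEmbedding (hdeg : DegAdditive k A0 A1 A01 t s)
    (S : SchemeDict A0 A1 A01 t s ε e d) :
    ClEmbedding A0 A1 A01 t s e (relModel hdeg S) where
  toCl B _ _ x := (x : ↥(picZero hdeg e B)).1
  inj _ _ _ := Subtype.val_injective
  rigid B _ _ x := ((x : ↥(picZero hdeg e B)).2).1
  degZero B _ _ x := ((x : ↥(picZero hdeg e B)).2).2
  surj _ _ _ y hr hd := ⟨⟨y, hr, hd⟩, rfl⟩
  map _ _ _ _ _ _ ψ x := picZeroMap_coe hdeg e ψ x

variable {J : Scheme.{u}}

/-- **The relative group law of the Jacobian of the chain**, for the group structures on classes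
of the model `relModel hdeg S`. -/
noncomputable def chainLaw (hdeg : DegAdditive k A0 A1 A01 t s)
    (S : SchemeDict A0 A1 A01 t s ε e d) (rep : (G (degZeroCut d ε)).RepresentableBy J) :
    RelativeGroupLaw k (toBase rep) :=
  letI : ∀ b : AffIdx (Spec (CommRingCat.of k)), CommGroup (CutClasses (degZeroCut d ε) b.2) :=
    fun b => (relModel hdeg S).commGroup b
  jacLaw rep (fun ψ x y => (relModel hdeg S).res_mul ψ x y)

theorem chainLaw_isCommutative (hdeg : DegAdditive k A0 A1 A01 t s)
    (S : SchemeDict A0 A1 A01 t s ε e d) (rep : (G (degZeroCut d ε)).RepresentableBy J) :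
    (chainLaw hdeg S rep).IsCommutative :=
  letI : ∀ b : AffIdx (Spec (CommRingCat.of k)), CommGroup (CutClasses (degZeroCut d ε) b.2) :=
    fun b => (relModel hdeg S).commGroup b
  jacLaw_isCommutative rep (fun ψ x y => (relModel hdeg S).res_mul ψ x y)
    (fun _ x y => mul_comm x y)

theorem chain_abelianSchemePropertyBundle (hdeg : DegAdditive k A0 A1 A01 t s)
    (S : SchemeDict A0 A1 A01 t s ε e d) (rep : (G (degZeroCut d ε)).RepresentableBy J)
    (hprops : JacProps k (toBase rep)) : AbelianSchemePropertyBundle k (toBase rep) :=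
  letI : ∀ b : AffIdx (Spec (CommRingCat.of k)), CommGroup (CutClasses (degZeroCut d ε) b.2) :=
    fun b => (relModel hdeg S).commGroup b
  haveI := hprops.2.1
  haveI := hprops.2.2.1
  haveI := hprops.2.2.2.1
  jac_abelianSchemePropertyBundle rep (fun ψ x y => (relModel hdeg S).res_mul ψ x y)

variable [IsAlgClosed k]

/-- **The Jacobian package of CURVE data.**  Inputs: the coordinates `hts`, `ha0`, `ha1` of the
fibre theory, the dictionary `S`, additivity of the degree `hdeg`, a representing scheme `rep`
with the five properties, the Čech genus datum `h` and the points dictionary `hpts`. -/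
theorem jacPackage_of_block
    (hts : algebraMap A0 A01 t * algebraMap A1 A01 s = 1)
    {n0 n1 : ℕ} {a0 : Fin n0 → A0} {a1 : Fin n1 → A1}
    (ha0 : Function.Bijective (fun p : Fin n0 → k[X] => ∑ j, aeval t (p j) * a0 j))
    (ha1 : Function.Bijective (fun p : Fin n1 → k[X] => ∑ j, aeval s (p j) * a1 j))
    [IsDedekindDomain (k ⊗[k] A0)] [IsDedekindDomain (k ⊗[k] A1)]
    [IsDedekindDomain (k ⊗[k] A01)]
    (hdeg : DegAdditive k A0 A1 A01 t s) (S : SchemeDict A0 A1 A01 t s ε e d)
    (rep : (G (degZeroCut d ε)).RepresentableBy J) (hprops : JacProps k (toBase rep))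
    (h : A01 →ₗ[k] (Fin (genusFF k (FF k A01 k)) → k)) (hs : Function.Surjective h)
    (hker : LinearMap.ker h =
      LinearMap.range (IsScalarTower.toAlgHom k A0 A01).toLinearMap ⊔
        LinearMap.range (IsScalarTower.toAlgHom k A1 A01).toLinearMap)
    (E : SchemeHomOver (𝟙 (Spec (CommRingCat.of k))) (toBase rep) ≃ ↥(picZero hdeg e k))
    (hE : ∀ x y, E ((chainLaw hdeg S rep).mul (𝟙 (Spec (CommRingCat.of k))) x y) = E x * E y) :
    JacPackage k (FF k A01 k) := by
  obtain ⟨φ⟩ := nonempty_pic0_addEquiv_picZero t s k hts ha0 ha1 hdeg e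
  haveI := hprops.2.1
  refine ⟨J, toBase rep, chainLaw hdeg S rep, chainLaw_isCommutative hdeg S rep,
    chain_abelianSchemePropertyBundle hdeg S rep hprops, ?_,
    (E.trans Additive.ofMul).trans φ.symm.toEquiv, fun x y => ?_⟩
  · exact smoothOfRelativeDimension_toBase rep (relModel hdeg S) (clEmbedding hdeg S) h hs hker
  · simp only [Equiv.trans_apply, hE, ofMul_mul]
    exact map_add φ.symm _ _

end Block

/-! ### The three inputs and the package statement -/

section Statements

open Fermat.Agent.JAC.B2 Charts37 Domain37 Valuative37 TwoChart37 Export37 CurveBlock37 HGeom37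
  FibreSetting37

attribute [local instance] algK₀ algK₁ algK₀₁ alg₀ alg₁

/-- **The S25 chain with its objects exposed** (input from the S25 final assembly): for every S25
curve, two-chart data `D`, a base point `e`, a degree theory `d`, the scheme-level dictionary,
additivity of the degree and a scheme representing the degree-zero cut with the five properties
of `JacData27.JacProps`. -/
def ChainStatement : Prop :=
  ∀ (k : Type u) [Field k] [IsAlgClosed k] {C : Scheme.{u}} (c : C ⟶ Spec (CommRingCat.of k))
    [IsProper c] [SmoothOfRelativeDimension 1 c] [IsIntegral C]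
    (ε : SchemeHomOver (𝟙 (Spec (CommRingCat.of k))) c),
    ∃ (D : TwoChartData c) (e : A₀₁ D →ₐ[k] k) (d : FibreDegree c)
      (_ : SchemeDict (A₀ D) (A₁ D) (A₀₁ D) D.t D.s ε e d)
      (_ : DegAdditive k (A₀ D) (A₁ D) (A₀₁ D) D.t D.s)
      (J : Scheme.{u}) (rep : (G (degZeroCut d ε)).RepresentableBy J), JacProps k (toBase rep)

/-- **The Čech genus of CURVE data is the adelic genus of its function field** (input: helper70's
`FF/GenusBlock70`). -/
def GenusStatement : Prop :=
  ∀ (k : Type u) [Field k] [IsAlgClosed k] [CharZero k] (A0 A1 A01 : Type u)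
    [CommRing A0] [CommRing A1] [CommRing A01]
    [Algebra k A0] [Algebra k A1] [Algebra k A01] [Algebra A0 A01] [Algebra A1 A01]
    [IsScalarTower k A0 A01] [IsScalarTower k A1 A01] (t : A0) (s : A1)
    [IsLocalization.Away t A01] [IsLocalization.Away s A01]
    (_ : algebraMap A0 A01 t * algebraMap A1 A01 s = 1)
    {n0 n1 : ℕ} {a0 : Fin n0 → A0} {a1 : Fin n1 → A1}
    (_ : Function.Bijective (fun p : Fin n0 → k[X] => ∑ j, aeval t (p j) * a0 j))
    (_ : Function.Bijective (fun p : Fin n1 → k[X] => ∑ j, aeval s (p j) * a1 j))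
    [IsDedekindDomain (k ⊗[k] A0)] [IsDedekindDomain (k ⊗[k] A1)]
    [IsDedekindDomain (k ⊗[k] A01)],
    ∃ h : A01 →ₗ[k] (Fin (genusFF k (FF k A01 k)) → k), Function.Surjective h ∧
      LinearMap.ker h =
        LinearMap.range (IsScalarTower.toAlgHom k A0 A01).toLinearMap ⊔
          LinearMap.range (IsScalarTower.toAlgHom k A1 A01).toLinearMap

/-- **The points of the Jacobian of the chain are the rigid classes of degree zero over the base
field**, multiplicatively (input: C5c, helper31). -/
def PointsStatement : Prop :=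
  ∀ (k : Type u) [Field k] {C : Scheme.{u}} {c : C ⟶ Spec (CommRingCat.of k)}
    {ε : SchemeHomOver (𝟙 (Spec (CommRingCat.of k))) c}
    {A0 A1 A01 : Type u} [CommRing A0] [CommRing A1] [CommRing A01]
    [Algebra k A0] [Algebra k A1] [Algebra k A01] [Algebra A0 A01] [Algebra A1 A01]
    [IsScalarTower k A0 A01] [IsScalarTower k A1 A01] {t : A0} {s : A1}
    [IsLocalization.Away t A01] [IsLocalization.Away s A01]
    {e : A01 →ₐ[k] k} {d : FibreDegree c}
    (hdeg : DegAdditive k A0 A1 A01 t s) (S : SchemeDict A0 A1 A01 t s ε e d)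
    {J : Scheme.{u}} (rep : (G (degZeroCut d ε)).RepresentableBy J),
    ∃ E : SchemeHomOver (𝟙 (Spec (CommRingCat.of k))) (toBase rep) ≃ ↥(picZero hdeg e k),
      ∀ x y, E ((chainLaw hdeg S rep).mul (𝟙 (Spec (CommRingCat.of k))) x y) = E x * E y

variable {k : Type u} [Field k] [IsAlgClosed k] [CharZero k] {C : Scheme.{u}}
  {c : C ⟶ Spec (CommRingCat.of k)} [IsProper c] [SmoothOfRelativeDimension 1 c] [IsIntegral C]

/-- **The Jacobian package of the function field `Frac (k ⊗ A₀₁)` of an S25 curve.** -/
theorem jacPackage_FF (hchain : ChainStatement.{u}) (hgenus : GenusStatement.{u})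
    (hpts : PointsStatement.{u}) (ε : SchemeHomOver (𝟙 (Spec (CommRingCat.of k))) c) :
    ∃ D : TwoChartData c,
      haveI := isDedekindDomain_baseChange₀₁ D k
      JacPackage k (FF k (A₀₁ D) k) := by
  obtain ⟨D, e, d, S, hdeg, J, rep, hprops⟩ := hchain k c ε
  refine ⟨D, ?_⟩
  haveI := isDedekindDomain_baseChange₀ D k
  haveI := isDedekindDomain_baseChange₁ D k
  haveI := isDedekindDomain_baseChange₀₁ D k
  obtain ⟨n0, a0, ha0⟩ := exists_coords₀ D
  obtain ⟨n1, a1, ha1⟩ := exists_coords₁ D
  obtain ⟨h, hs, hker⟩ := hgenus k (A₀ D) (A₁ D) (A₀₁ D) D.t D.s (hts D) ha0 ha1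
  obtain ⟨E, hE⟩ := hpts k hdeg S rep
  exact jacPackage_of_block (hts D) ha0 ha1 hdeg S rep hprops h hs hker E hE

/-- **The Jacobian package of the function field of an S25 curve** (with its `k`-algebra
structure `structureHomF c`). -/
theorem jacPackage_functionField (hchain : ChainStatement.{u}) (hgenus : GenusStatement.{u})
    (hpts : PointsStatement.{u}) (ε : SchemeHomOver (𝟙 (Spec (CommRingCat.of k))) c) :
    letI : Algebra k C.functionField := (structureHomF c).toAlgebra
    JacPackage k C.functionField := by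
  letI : Algebra k C.functionField := (structureHomF c).toAlgebra
  obtain ⟨D, hD⟩ := jacPackage_FF hchain hgenus hpts ε
  haveI := isDedekindDomain_baseChange₀₁ D k
  exact Congr1.jacPackage_of_algEquiv (ffAlgEquiv D) hD

end Statements

/-- **The package statement of the S27 skeleton** from the exposed S25 chain, the genus comparison
and the points dictionary. -/
theorem packageStatement_of_statements (hchain : ChainStatement.{u})
    (hgenus : GenusStatement.{u}) (hpts : PointsStatement.{u}) : PackageStatement.{u} := by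
  intro K F _ _ _ _ _ _ _
  obtain ⟨x, hx⟩ := Fermat.Agent.JAC.FF.Gen38.exists_isGen K F
  obtain ⟨ε, hε⟩ := Fermat.Agent.JAC.FF.CurveScheme9.exists_section hx
  haveI : SmoothOfRelativeDimension 1 (Fermat.Agent.JAC.FF.CurveScheme9.toBaseFF hx) :=
    Fermat.Agent.JAC.FF.CurveScheme9.smoothOfRelativeDimension_toBaseFF hx
      AlgebraicCurve.IsCurveOver.finrank_kaehler
  letI := Fermat.Agent.JAC.FF.CurveFunctionField9.algebraFunctionField hx
  have h := jacPackage_functionField (c := Fermat.Agent.JAC.FF.CurveScheme9.toBaseFF hx)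
    hchain hgenus hpts ⟨ε, hε⟩
  exact Congr1.jacPackage_of_algEquiv
    (Fermat.Agent.JAC.FF.CurveFunctionField9.functionFieldAlgEquivFF hx) h

end Fermat.Agent.JAC.Final27.Package38
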