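/-
Programme JAC, S27 track (helper38): **the S25 chain with its objects exposed**, i.e. the
statement `Package38.ChainStatement`, from the two open inputs of the S25 final wiring
(`Final/S25Skeleton36`): the algebraic atlas and the Abel data.

* `jacProps_of_algAtlas`, `jacProps_of_localAtlas`: the twins of `S25Skeleton36.s25_of_algAtlas`,
  `s25_of_localAtlas` with the conclusion `JacData27.JacProps` for the SPECIFIC Jacobian of the
  chain (`JacData27.props_of_schemeDict_twoCharts` in place of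
  `AbelSchemeDict27.s25_of_schemeDict_twoCharts`).
* `InputsStatement`: the existence of the atlas and of the Abel data for every S25 curve;
  `chainStatement_of_inputs : InputsStatement → Package38.ChainStatement`, and
  `s25_of_inputs : InputsStatement → [frozen S25 conclusion]` (so that S25 and S27 are closed by the
  SAME input).
-/
import Mathlib
import Fermat.Agent.JAC.Final.S25Skeleton36
import Fermat.Agent.JAC.Final27.Package38

set_option autoImplicit false
set_option linter.unusedSectionVars false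

universe u

open CategoryTheory CategoryTheory.Limits AlgebraicGeometry AlgebraicGeometry.RelPicard
  NeronModelInfra GoodReductionJacobian

namespace Fermat.Agent.JAC.Final27.Chain38

open Fermat.Agent.JAC.B2.TwoChart37 Fermat.Agent.JAC.B2.CurveBlock37 Fermat.Agent.JAC.B2.Export37
  Fermat.Agent.JAC.B2.Adapter37
  Fermat.Agent.JAC.Core.AlgAtlas36 Fermat.Agent.JAC.Core.Degree36
  Fermat.Agent.JAC.Repr.Wiring10 Fermat.Agent.JAC.Repr.Jacobian10
  Fermat.Agent.JAC.AE0.DegZero35 Fermat.Agent.JAC.AE0.Transfer35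
  Fermat.Agent.JAC.Final.SchemeDict36 Fermat.Agent.JAC.Final.RelModel33
  Fermat.Agent.JAC.Final.CutDescent30
  Fermat.Agent.JAC.Final.SchemeDictCurve4 Fermat.Agent.JAC.Final.JacData27
  Fermat.Agent.JAC.Final.S25Skeleton36
  Fermat.Agent.JAC.Hilb.AtlasLocal33
  Fermat.Agent.JAC.Final27.Package38

attribute [local instance] algK₀ algK₁ algK₀₁ alg₀ alg₁

section Curve

variable {k : Type u} [Field k] [IsAlgClosed k] {C : Scheme.{u}}
  {c : C ⟶ Spec (CommRingCat.of k)} [IsProper c] [SmoothOfRelativeDimension 1 c] [IsIntegral C]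
  (ε : SchemeHomOver (𝟙 (Spec (CommRingCat.of k))) c) (P : PointedTwoChartData c ε.1)

/-- Additivity of the degree for the two-chart data of the curve. -/
theorem degAdditive :
    DegAdditive k (A₀ P.toTwoChartData) (A₁ P.toTwoChartData) (A₀₁ P.toTwoChartData)
      P.toTwoChartData.t P.toTwoChartData.s :=
  fun K _ _ _ x y => Fermat.Agent.JAC.B2.DegAdd37.hadd P.toTwoChartData K x y

/-- **The five properties of the Jacobian of the chain, from the algebraic atlas and the Abel
data** (twin of `S25Skeleton36.s25_of_algAtlas`). -/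
theorem jacProps_of_algAtlas
    (𝔸 : AlgAtlas k (A₀ P.toTwoChartData) (A₁ P.toTwoChartData) (A₀₁ P.toTwoChartData)
      P.toTwoChartData.t P.toTwoChartData.s (e P ε.2))
    (g : ℕ)
    (ξ0 : Cl k (A₀ P.toTwoChartData) (A₁ P.toTwoChartData) (A₀₁ P.toTwoChartData)
      P.toTwoChartData.t P.toTwoChartData.s (A₀ P.toTwoChartData))
    (ξ1 : Cl k (A₀ P.toTwoChartData) (A₁ P.toTwoChartData) (A₀₁ P.toTwoChartData)
      P.toTwoChartData.t P.toTwoChartData.s (A₁ P.toTwoChartData))
    (hr0 : IsRigidCl (e P ε.2) (A₀ P.toTwoChartData) ξ0)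
    (hd0 : IsDegZero (A₀ P.toTwoChartData) ξ0)
    (hr1 : IsRigidCl (e P ε.2) (A₁ P.toTwoChartData) ξ1)
    (hd1 : IsDegZero (A₁ P.toTwoChartData) ξ1)
    (hagree : bc (IsScalarTower.toAlgHom k (A₀ P.toTwoChartData) (A₀₁ P.toTwoChartData)) ξ0 =
      bc (IsScalarTower.toAlgHom k (A₁ P.toTwoChartData) (A₀₁ P.toTwoChartData)) ξ1)
    (hsurj : ∀ (K : Type u) [Field K] [IsAlgClosed K] [Algebra k K]
      (z : Cl k (A₀ P.toTwoChartData) (A₁ P.toTwoChartData) (A₀₁ P.toTwoChartData)
        P.toTwoChartData.t P.toTwoChartData.s K),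
      IsRigidCl (e P ε.2) K z → IsDegZero K z →
      ∃ f : Fin g → (A₀ P.toTwoChartData →ₐ[k] K) ⊕ (A₁ P.toTwoChartData →ₐ[k] K),
        z = ∏ i, Sum.elim (fun p => bc p ξ0) (fun p => bc p ξ1) (f i)) :
    JacProps k (toBase (jacRep (cutDescent_degZeroCut (ε := ε) (fibreDegreeCurve ε P))
      (Fermat.Agent.JAC.Final.SchemeDict36.atlas (schemeDictCurve ε P) 𝔸))) :=
  props_of_schemeDict_twoCharts (schemeDictCurve ε P) 𝔸 (degAdditive ε P)
    (ι₀ P.toTwoChartData) (ι₁ P.toTwoChartData) (ι₀₁ P.toTwoChartData)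
    (hι₀ P.toTwoChartData) (hι₁ P.toTwoChartData)
    (specMap_algebraMap_ι₀ P.toTwoChartData) (specMap_algebraMap_ι₁ P.toTwoChartData)
    (opensRange_sup P.toTwoChartData) (opensRange_inf P.toTwoChartData)
    g ξ0 ξ1 hr0 hd0 hr1 hd1 hagree hsurj

end Curve

/-- **The two open inputs of S25** (the algebraic atlas and the Abel data), for every S25 curve:
pointed two-chart data `P`, an algebraic atlas for its CURVE block, and the Abel data in the
literal binders of `S25Skeleton36.s25_of_algAtlas`. -/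
def InputsStatement : Prop :=
  ∀ (k : Type u) [Field k] [IsAlgClosed k] {C : Scheme.{u}} (c : C ⟶ Spec (CommRingCat.of k))
    [IsProper c] [SmoothOfRelativeDimension 1 c] [IsIntegral C]
    (ε : SchemeHomOver (𝟙 (Spec (CommRingCat.of k))) c),
    ∃ (P : PointedTwoChartData c ε.1)
      (_ : AlgAtlas k (A₀ P.toTwoChartData) (A₁ P.toTwoChartData) (A₀₁ P.toTwoChartData)
        P.toTwoChartData.t P.toTwoChartData.s (e P ε.2))
      (g : ℕ)
      (ξ0 : Cl k (A₀ P.toTwoChartData) (A₁ P.toTwoChartData) (A₀₁ P.toTwoChartData)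
        P.toTwoChartData.t P.toTwoChartData.s (A₀ P.toTwoChartData))
      (ξ1 : Cl k (A₀ P.toTwoChartData) (A₁ P.toTwoChartData) (A₀₁ P.toTwoChartData)
        P.toTwoChartData.t P.toTwoChartData.s (A₁ P.toTwoChartData)),
      IsRigidCl (e P ε.2) (A₀ P.toTwoChartData) ξ0 ∧ IsDegZero (A₀ P.toTwoChartData) ξ0 ∧
      IsRigidCl (e P ε.2) (A₁ P.toTwoChartData) ξ1 ∧ IsDegZero (A₁ P.toTwoChartData) ξ1 ∧
      bc (IsScalarTower.toAlgHom k (A₀ P.toTwoChartData) (A₀₁ P.toTwoChartData)) ξ0 =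
        bc (IsScalarTower.toAlgHom k (A₁ P.toTwoChartData) (A₀₁ P.toTwoChartData)) ξ1 ∧
      ∀ (K : Type u) [Field K] [IsAlgClosed K] [Algebra k K]
        (z : Cl k (A₀ P.toTwoChartData) (A₁ P.toTwoChartData) (A₀₁ P.toTwoChartData)
          P.toTwoChartData.t P.toTwoChartData.s K),
        IsRigidCl (e P ε.2) K z → IsDegZero K z →
        ∃ f : Fin g → (A₀ P.toTwoChartData →ₐ[k] K) ⊕ (A₁ P.toTwoChartData →ₐ[k] K),
          z = ∏ i, Sum.elim (fun p => bc p ξ0) (fun p => bc p ξ1) (f i)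

/-- **The exposed S25 chain from the two open inputs of S25.** -/
theorem chainStatement_of_inputs (H : InputsStatement.{u}) : ChainStatement.{u} := by
  intro k _ _ C c _ _ _ ε
  obtain ⟨P, 𝔸, g, ξ0, ξ1, hr0, hd0, hr1, hd1, hagree, hsurj⟩ := H k c ε
  exact ⟨P.toTwoChartData, e P ε.2, fibreDegreeCurve ε P, schemeDictCurve ε P, degAdditive ε P, _,
    jacRep (cutDescent_degZeroCut (ε := ε) (fibreDegreeCurve ε P))
      (Fermat.Agent.JAC.Final.SchemeDict36.atlas (schemeDictCurve ε P) 𝔸),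
    jacProps_of_algAtlas ε P 𝔸 g ξ0 ξ1 hr0 hd0 hr1 hd1 hagree hsurj⟩

/-- **The frozen S25 conclusion from the same inputs.** -/
theorem s25_of_inputs (H : InputsStatement.{u})
    (k : Type u) [Field k] [IsAlgClosed k] {C : Scheme.{u}} (c : C ⟶ Spec (CommRingCat.of k))
    [IsProper c] [SmoothOfRelativeDimension 1 c] [IsIntegral C]
    (ε : SchemeHomOver (𝟙 (Spec (CommRingCat.of k))) c) :
    ∃ D : RelativePic0Designation k c,
      Nonempty (RepresentsRelSubPic c ε (algEquivZeroCut c ε) D) ∧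
        Smooth D.toBase ∧ IsProper D.toBase ∧ GeometricallyConnected D.toBase := by
  obtain ⟨P, 𝔸, g, ξ0, ξ1, hr0, hd0, hr1, hd1, hagree, hsurj⟩ := H k c ε
  exact s25_of_algAtlas ε P 𝔸 g ξ0 ξ1 hr0 hd0 hr1 hd1 hagree hsurj

end Fermat.Agent.JAC.Final27.Chain38
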