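/-
Programme JAC, S27 track, brick C5c.  Owner: helper31.

THE RATIONAL POINTS OF THE JACOBIAN OF THE S25 CHAIN ARE THE MODEL GROUP.

For a scheme `J` representing the absolute Picard presheaf `Wiring10.G P` of a cut `P` over
`Spec k`, and a model `M : RelModel P` of the classes in the cut over affine bases
(`Repr/RelModel10`; in the application `M.A B` = rigid degree-zero classes of line diagrams over
`B`, `Final/RelModel33.relModel`), the group law of `J` is `JacGroupLaw85.jacLaw` for the group
structures `M.commGroup` transported from the model.  This file identifies the `k`-points: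

* `modelLaw rep M : RelativeGroupLaw k (toBase rep)`, `modelLaw_isCommutative`;
* `pointsEquiv rep M : SchemeHomOver (𝟙 (Spec k)) (toBase rep) ≃ M.A k`, multiplicative
  (`pointsEquiv_mul`, `_one`, `_inv`, `_nsmul`), `pointsMulEquiv`;
* `isTorsionPoint_iff`, `natCard_isTorsionPoint`: torsion points = torsion of `M.A k`;
* `exists_equiv_of_addEquiv`: for an additive group `G₀` with `G₀ ≃+ Additive (M.A k)`, a
  bijection `SchemeHomOver (𝟙 _) (toBase rep) ≃ G₀` taking the group law to `+`: the last
  conjunct of `Final27/Skeleton1.JacPackage`;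
* `jacPackage_of_model`: `Skeleton1.JacPackage K F` from the properties of `toBase rep`
  (`Final/JacData27`), its relative dimension (C4) and `Pic0 K F ≃+ Additive (M.A K)` (C5a/b).
-/
import Fermat.Agent.JAC.FF.JacGroupLaw85
import Fermat.Agent.JAC.Repr.RelModelStd85
import Fermat.Agent.JAC.Final27.Skeleton1

set_option autoImplicit false

universe w u

open CategoryTheory Limits Opposite AlgebraicGeometry AlgebraicGeometry.RelPicard NeronModelInfra
  GoodReductionJacobian

namespace Fermat.Agent.JAC.Final27.Points31

open Fermat.Agent.JAC.Repr.Wiring10 Fermat.Agent.JAC.Repr.Group10 Fermat.Agent.JAC.Grp.OverAff6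
  Fermat.Agent.JAC.Repr.RelModel10 Fermat.Agent.JAC.Repr.RelModelStd85
  Fermat.Agent.JAC.FF.JacGroupLaw85

variable {k : Type u} [CommRing k] {C : Scheme.{u}} {c : C ⟶ Spec (CommRingCat.of k)}
  {ε : SchemeHomOver (𝟙 (Spec (CommRingCat.of k))) c} {P : SubPicCondition c ε}

/-! ### The base index of the rational points -/

variable (k) in
/-- The affine base `(k, 𝟙 (Spec k))`. -/
noncomputable abbrev idIdx : AffIdx (Spec (CommRingCat.of k)) :=
  ⟨CommRingCat.of k, 𝟙 (Spec (CommRingCat.of k))⟩

variable (k) in
/-- The `k`-algebra structure extracted from `𝟙 (Spec k)` is the standard one. -/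
lemma algOf_idIdx : algOf (idIdx k) = Algebra.id k := by
  have h : Spec.preimage (𝟙 (Spec (CommRingCat.of k))) = 𝟙 (CommRingCat.of k) := by
    apply Spec.map_injective
    rw [Spec.map_preimage, Spec.map_id]
  exact Algebra.algebra_ext _ _ fun r =>
    congrArg (fun f : CommRingCat.of k ⟶ CommRingCat.of k => f.hom r) h

/-- Transport of the model group along an equality of algebra structures. -/
def modelCongr (M : RelModel.{w} P) {B : Type u} [CommRing B] {i0 i1 : Algebra k B}
    (h : i0 = i1) :
    @RelModel.A k _ C c ε P M B _ i0 ≃* @RelModel.A k _ C c ε P M B _ i1 := by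
  subst h
  exact MulEquiv.refl _

variable [hs : ∀ {T : Scheme.{u}} (t : T ⟶ Spec (CommRingCat.of k)), Small.{u} (CutClasses P t)]
  {J : Scheme.{u}} (rep : (G P).RepresentableBy J) (M : RelModel.{w} P)

/-! ### The group law of the representing scheme, for the group structures of the model -/

/-- **The relative group law of the representing scheme**, for the group structures on classes
transported from the model `M` (`JacGroupLaw85.jacLaw`). -/
noncomputable abbrev modelLaw : RelativeGroupLaw k (toBase rep) :=
  jacLaw (grp := fun d => (M.commGroup d).toGroup) rep (fun ψ x y => M.res_mul ψ x y)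

theorem modelLaw_isCommutative : (modelLaw rep M).IsCommutative :=
  jacLaw_isCommutative (grp := fun d => (M.commGroup d).toGroup) rep
    (fun ψ x y => M.res_mul ψ x y)
    (fun d x y => @mul_comm _ (M.commGroup d).toCommMonoid.toCommMagma x y)

omit hs in
/-- `M.equiv b` is multiplicative for the transported structure. -/
lemma equiv_mul (b : AffIdx (Spec (CommRingCat.of k))) (x y : CutClasses P b.2) :
    M.equiv b (@HMul.hMul _ _ _ (@instHMul _ (M.commGroup b).toMul) x y) =
      M.equiv b x * M.equiv b y :=
  (M.equiv b).apply_symm_apply _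

/-! ### The rational points -/

/-- **The rational points of the representing scheme are the model group over `k`.** -/
noncomputable def pointsEquiv :
    SchemeHomOver (𝟙 (Spec (CommRingCat.of k))) (toBase rep) ≃ M.A k :=
  ((overEquiv rep (𝟙 (Spec (CommRingCat.of k)))).trans (M.equiv (idIdx k))).trans
    (modelCongr M (algOf_idIdx k)).toEquiv

lemma pointsEquiv_apply (x : SchemeHomOver (𝟙 (Spec (CommRingCat.of k))) (toBase rep)) :
    pointsEquiv rep M x = modelCongr M (algOf_idIdx k)
      (M.equiv (idIdx k) (overEquiv rep (𝟙 (Spec (CommRingCat.of k))) x)) := rfl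

/-- The bijection takes the group law of the Jacobian to the multiplication of the model. -/
theorem pointsEquiv_mul (x y : SchemeHomOver (𝟙 (Spec (CommRingCat.of k))) (toBase rep)) :
    pointsEquiv rep M ((modelLaw rep M).mul (𝟙 (Spec (CommRingCat.of k))) x y) =
      pointsEquiv rep M x * pointsEquiv rep M y := by
  rw [pointsEquiv_apply, pointsEquiv_apply, pointsEquiv_apply, ← map_mul, ← equiv_mul]
  congr 2
  exact overEquiv_mul (grp := fun d => (M.commGroup d).toGroup) rep
    (fun ψ x y => M.res_mul ψ x y) (B := CommRingCat.of k) (𝟙 (Spec (CommRingCat.of k))) x y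

/-- The rational points and the model group, as a multiplicative equivalence. -/
noncomputable def pointsMulEquiv :
    letI := RelativeGroupLaw.pointGroup (modelLaw rep M) (𝟙 (Spec (CommRingCat.of k)))
    SchemeHomOver (𝟙 (Spec (CommRingCat.of k))) (toBase rep) ≃* M.A k :=
  letI := RelativeGroupLaw.pointGroup (modelLaw rep M) (𝟙 (Spec (CommRingCat.of k)))
  { pointsEquiv rep M with map_mul' := fun x y => pointsEquiv_mul rep M x y }

lemma pointsMulEquiv_apply (x : SchemeHomOver (𝟙 (Spec (CommRingCat.of k))) (toBase rep)) :
    pointsMulEquiv rep M x = pointsEquiv rep M x := rfl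

theorem pointsEquiv_one :
    pointsEquiv rep M ((modelLaw rep M).one (𝟙 (Spec (CommRingCat.of k)))) = 1 := by
  let _ := RelativeGroupLaw.pointGroup (modelLaw rep M) (𝟙 (Spec (CommRingCat.of k)))
  exact map_one (pointsMulEquiv rep M)

theorem pointsEquiv_inv (x : SchemeHomOver (𝟙 (Spec (CommRingCat.of k))) (toBase rep)) :
    pointsEquiv rep M ((modelLaw rep M).inv (𝟙 (Spec (CommRingCat.of k))) x) =
      (pointsEquiv rep M x)⁻¹ := by
  let _ := RelativeGroupLaw.pointGroup (modelLaw rep M) (𝟙 (Spec (CommRingCat.of k)))
  exact map_inv (pointsMulEquiv rep M) x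

theorem pointsEquiv_nsmul (n : ℕ)
    (x : SchemeHomOver (𝟙 (Spec (CommRingCat.of k))) (toBase rep)) :
    pointsEquiv rep M ((modelLaw rep M).nsmul (𝟙 (Spec (CommRingCat.of k))) n x) =
      pointsEquiv rep M x ^ n := by
  induction n with
  | zero => rw [RelativeGroupLaw.nsmul_zero, pointsEquiv_one, pow_zero]
  | succ n ih => rw [RelativeGroupLaw.nsmul_succ, pointsEquiv_mul, ih, pow_succ]

/-- The torsion points of the Jacobian are the torsion elements of the model group. -/
theorem isTorsionPoint_iff (n : ℕ)
    (x : SchemeHomOver (𝟙 (Spec (CommRingCat.of k))) (toBase rep)) :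
    (modelLaw rep M).IsTorsionPoint (𝟙 (Spec (CommRingCat.of k))) n x ↔
      pointsEquiv rep M x ^ n = 1 := by
  rw [RelativeGroupLaw.isTorsionPoint_def, ← pointsEquiv_nsmul, ← pointsEquiv_one rep M]
  exact ((pointsEquiv rep M).injective.eq_iff).symm

/-- **The count of rational torsion points** is the count of torsion elements of the model. -/
theorem natCard_isTorsionPoint (n : ℕ) :
    Nat.card {x : SchemeHomOver (𝟙 (Spec (CommRingCat.of k))) (toBase rep) //
        (modelLaw rep M).IsTorsionPoint (𝟙 (Spec (CommRingCat.of k))) n x} =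
      Nat.card {a : M.A k // a ^ n = 1} :=
  Nat.card_congr ((pointsEquiv rep M).subtypeEquiv fun x => isTorsionPoint_iff rep M n x)

/-- Surjectivity of multiplication by `n` on rational points, read on the model. -/
theorem nsmul_surjective_iff (n : ℕ) :
    (∀ y : SchemeHomOver (𝟙 (Spec (CommRingCat.of k))) (toBase rep),
      ∃ x, (modelLaw rep M).nsmul (𝟙 (Spec (CommRingCat.of k))) n x = y) ↔
      ∀ b : M.A k, ∃ a : M.A k, a ^ n = b := by
  constructor
  · intro h b
    obtain ⟨x, hx⟩ := h ((pointsEquiv rep M).symm b)
    exact ⟨pointsEquiv rep M x, by rw [← pointsEquiv_nsmul, hx, Equiv.apply_symm_apply]⟩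
  · intro h y
    obtain ⟨a, ha⟩ := h (pointsEquiv rep M y)
    refine ⟨(pointsEquiv rep M).symm a, (pointsEquiv rep M).injective ?_⟩
    rw [pointsEquiv_nsmul, Equiv.apply_symm_apply, ha]

/-! ### The shape of `Final27/Skeleton1.JacPackage` -/

/-- **The last conjunct of `Skeleton1.JacPackage`**: if an additive group `G` (in the application
`Pic0 K F`) is isomorphic to the model group over `k`, the rational points of the representing
scheme are in bijection with `G`, the group law corresponding to the addition. -/
theorem exists_equiv_of_addEquiv {G₀ : Type*} [AddGroup G₀]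
    (φ : G₀ ≃+ Additive (M.A k)) :
    ∃ e : SchemeHomOver (𝟙 (Spec (CommRingCat.of k))) (toBase rep) ≃ G₀,
      ∀ x y, e ((modelLaw rep M).mul (𝟙 (Spec (CommRingCat.of k))) x y) = e x + e y := by
  refine ⟨((pointsEquiv rep M).trans Additive.ofMul).trans φ.symm.toEquiv, fun x y => ?_⟩
  change φ.symm (Additive.ofMul (pointsEquiv rep M _)) =
    φ.symm (Additive.ofMul (pointsEquiv rep M x)) + φ.symm (Additive.ofMul (pointsEquiv rep M y))
  rw [pointsEquiv_mul, ofMul_mul, map_add]

/-- **The Jacobian package from a model.**  Inputs: the representing scheme `rep`, the model `M`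
of the classes over affine bases, smoothness, properness and geometric connectedness of
`toBase rep` (`Final/JacData27`), its relative dimension `genusFF K F` (C4), and an additive
isomorphism of `Pic0 K F` with the model group over `K` (C5a + C5b). -/
theorem jacPackage_of_model {K F : Type u} [Field K] [Field F] [Algebra K F]
    {C : Scheme.{u}} {c : C ⟶ Spec (CommRingCat.of K)}
    {ε : SchemeHomOver (𝟙 (Spec (CommRingCat.of K))) c} {P : SubPicCondition c ε}
    [hs : ∀ {T : Scheme.{u}} (t : T ⟶ Spec (CommRingCat.of K)), Small.{u} (CutClasses P t)]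
    {J : Scheme.{u}} (rep : (G P).RepresentableBy J) (M : RelModel.{w} P)
    [Smooth (toBase rep)] [IsProper (toBase rep)] [GeometricallyConnected (toBase rep)]
    (hdim : SmoothOfRelativeDimension (AlgebraicCurve.genusFF K F) (toBase rep))
    (φ : AlgebraicCurve.Pic0 K F ≃+ Additive (M.A K)) :
    Skeleton1.JacPackage K F :=
  ⟨J, toBase rep, modelLaw rep M, modelLaw_isCommutative rep M,
    jac_abelianSchemePropertyBundle (grp := fun d => (M.commGroup d).toGroup) rep
      (fun ψ x y => M.res_mul ψ x y),
    hdim, exists_equiv_of_addEquiv rep M φ⟩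

end Fermat.Agent.JAC.Final27.Points31
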