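/-
Programme JAC, S27 track, chapter Final27 (helper9): **the transport statement is a theorem**.

`Skeleton1.TransportStatement` (invariance of the torsion counts of `Pic⁰`, of the genus, of
`IsCurveOver` and of `Algebra.EssFiniteType` under isomorphisms of pairs `(K, F) ≃ (K', F')`)
follows at once from the isomorphism invariance of the function-field objects (`Transport9`).

Also: convenience corollaries for `K`-algebra isomorphisms `F ≃ₐ[K] F'` (the form used in the
C5/C6 chain), and the frozen S27 statement from S26 and the package statement alone.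
-/
import Mathlib
import Fermat.Agent.JAC.Final27.Skeleton1
import Fermat.Agent.JAC.FF.Transport9

set_option autoImplicit false

open AlgebraicCurve

universe u u₁ u₂

namespace Fermat.Agent.JAC.Final27.TransportProof9

open Fermat.Agent.JAC.Final27 Fermat.Agent.JAC.FF.Transport9

/-- **The transport statement** of the S27 skeleton. -/
theorem transportStatement : Skeleton1.TransportStatement.{u₁, u₂} := by
  intro K F K' F' _ _ _ _ _ _ σ τ h
  let e : FieldIso K F K' F' := ⟨σ, τ, h⟩
  exact ⟨fun n => e.natCard_torsion n, e.genusFF_eq, fun _ => e.isCurveOver,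
    fun _ => e.essFiniteType⟩

/-- **The frozen S27 statement** from the S26 statement and the package statement (the transport
statement being proved). -/
theorem s27_of_s26_of_package
    (h26 : ∀ (K : Type (max u₁ u₂)) [Field K] [IsAlgClosed K], Skeleton1.S26Statement K)
    (hpkg : Skeleton1.PackageStatement.{max u₁ u₂})
    (K : Type u₁) (F : Type u₂) [Field K] [Field F] [Algebra K F] [IsAlgClosed K] [CharZero K]
    [IsCurveOver K F] [Algebra.EssFiniteType K F] (ℓ : ℕ) [Fact ℓ.Prime] (k : ℕ) :
    Nat.card (Pic0.torsion K F (ℓ ^ k)) = ℓ ^ (2 * genusFF K F * k) :=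
  Skeleton1.s27_of_statements h26 hpkg transportStatement K F ℓ k

/-! ### `K`-algebra isomorphisms of function fields -/

section AlgEquiv

variable {K : Type u₁} {F F' : Type*} [Field K] [Field F] [Algebra K F] [Field F'] [Algebra K F']

/-- `Pic⁰` along a `K`-isomorphism of function fields. -/
noncomputable def pic0EquivOfAlgEquiv (τ : F ≃ₐ[K] F') : Pic0 K F ≃+ Pic0 K F' :=
  (FieldIso.ofAlgEquiv τ).pic0Equiv

theorem natCard_torsion_of_algEquiv (τ : F ≃ₐ[K] F') (n : ℕ) :
    Nat.card (Pic0.torsion K F n) = Nat.card (Pic0.torsion K F' n) :=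
  (FieldIso.ofAlgEquiv τ).natCard_torsion n

theorem genusFF_eq_of_algEquiv (τ : F ≃ₐ[K] F') : genusFF K F = genusFF K F' :=
  (FieldIso.ofAlgEquiv τ).genusFF_eq

theorem isCurveOver_of_algEquiv (τ : F ≃ₐ[K] F') [IsCurveOver K F] : IsCurveOver K F' :=
  (FieldIso.ofAlgEquiv τ).isCurveOver

theorem essFiniteType_of_algEquiv (τ : F ≃ₐ[K] F') [Algebra.EssFiniteType K F] : Algebra.EssFiniteType K F' :=
  (FieldIso.ofAlgEquiv τ).essFiniteType

/-- A Jacobian package is invariant under `K`-isomorphisms of the function field. -/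
theorem jacPackage_of_algEquiv {K F F' : Type u} [Field K] [Field F] [Algebra K F] [Field F']
    [Algebra K F'] (τ : F ≃ₐ[K] F') (h : Skeleton1.JacPackage K F) :
    Skeleton1.JacPackage K F' := by
  obtain ⟨J, f, L, hc, hA, hsm, e, he⟩ := h
  refine ⟨J, f, L, hc, hA, ?_, e.trans (pic0EquivOfAlgEquiv τ).toEquiv, fun x y => ?_⟩
  · rw [← genusFF_eq_of_algEquiv τ]
    exact hsm
  · rw [Equiv.trans_apply, he]
    exact map_add (pic0EquivOfAlgEquiv τ) (e x) (e y)

end AlgEquiv

end Fermat.Agent.JAC.Final27.TransportProof9
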