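/-
Programme JAC, S27 track (helper38): **the S27 package statement from the exposed S25 chain
alone**.

The two S27-specific inputs of `Package38.packageStatement_of_statements` are discharged:

* `genusStatement : Package38.GenusStatement` = helper70's `FF/GenusCurve70.exists_curve_linearMap`;
* `pointsStatement : Package38.PointsStatement` = helper31's `Final27/Points31.pointsEquiv` for the
  model `RelModel33.relModel hdeg S`.

Hence `packageStatement_of_chain : Package38.ChainStatement → Skeleton1.PackageStatement`,
`packageStatement_of_inputs` (from `Chain38.InputsStatement`) and the frozen S27 statement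
`s27_of_s26_of_chain` from S26 and the chain.
-/
import Mathlib
import Fermat.Agent.JAC.Final27.Chain38
import Fermat.Agent.JAC.Final27.Points31
import Fermat.Agent.JAC.Final27.TransportProof9
import Fermat.Agent.JAC.FF.GenusCurve70

set_option autoImplicit false

universe u u₁ u₂

open CategoryTheory AlgebraicGeometry NeronModelInfra GoodReductionJacobian AlgebraicCurve

namespace Fermat.Agent.JAC.Final27.PackageFinal38

open Fermat.Agent.JAC.Final27.Package38 Fermat.Agent.JAC.Final27.Skeleton1

/-- **The Čech genus of CURVE data is the adelic genus of its function field** (helper70). -/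
theorem genusStatement : GenusStatement.{u} := by
  intro k _ _ _ A0 A1 A01 _ _ _ _ _ _ _ _ _ _ t s _ _ hts n0 n1 a0 a1 ha0 ha1 _ _ _
  exact Fermat.Agent.JAC.FF.GenusCurve70.exists_curve_linearMap t s hts ha0 ha1

/-- **The points of the Jacobian of the chain are the rigid classes of degree zero over the base
field**, multiplicatively (helper31). -/
theorem pointsStatement : PointsStatement.{u} := by
  intro k _ C c ε A0 A1 A01 _ _ _ _ _ _ _ _ _ _ t s _ _ e d hdeg S J rep
  exact ⟨Fermat.Agent.JAC.Final27.Points31.pointsEquiv rep
      (Fermat.Agent.JAC.Final.RelModel33.relModel hdeg S),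
    fun x y => Fermat.Agent.JAC.Final27.Points31.pointsEquiv_mul rep
      (Fermat.Agent.JAC.Final.RelModel33.relModel hdeg S) x y⟩

/-- **The S27 package statement from the exposed S25 chain.** -/
theorem packageStatement_of_chain (hchain : ChainStatement.{u}) : PackageStatement.{u} :=
  packageStatement_of_statements hchain genusStatement pointsStatement

/-- **The S27 package statement from the two open inputs of S25** (atlas + Abel data). -/
theorem packageStatement_of_inputs (H : Chain38.InputsStatement.{u}) : PackageStatement.{u} :=
  packageStatement_of_chain (Chain38.chainStatement_of_inputs H)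

/-- **The frozen S27 statement from S26 and the exposed S25 chain.** -/
theorem s27_of_s26_of_chain
    (h26 : ∀ (K : Type (max u₁ u₂)) [Field K] [IsAlgClosed K], S26Statement K)
    (hchain : ChainStatement.{max u₁ u₂})
    (K : Type u₁) (F : Type u₂) [Field K] [Field F] [Algebra K F] [IsAlgClosed K] [CharZero K]
    [IsCurveOver K F] [Algebra.EssFiniteType K F] (ℓ : ℕ) [Fact ℓ.Prime] (k : ℕ) :
    Nat.card (Pic0.torsion K F (ℓ ^ k)) = ℓ ^ (2 * genusFF K F * k) :=
  Fermat.Agent.JAC.Final27.TransportProof9.s27_of_s26_of_package h26
    (packageStatement_of_chain hchain) K F ℓ k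

end Fermat.Agent.JAC.Final27.PackageFinal38
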