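/-
Programme JAC, S27 track (helper38): **the exposed S25 chain, unconditionally**, hence the S27
package statement and the frozen S27 statement from S26 alone.

* `inputsStatement : Chain38.InputsStatement` : the atlas is helper24's
  `Hilb/AtlasDone24.algAtlas (CurveHyp36.curveHyp D) e`, the Abel data are those of helper57's
  final wiring `Final/S25Abel57` (`SurjBlock57.genus`, `AbelBlock56.xi₀/xi₁`, `SurjBlock57.hsurj`);
* `chainStatement : Package38.ChainStatement`, `packageStatement : Skeleton1.PackageStatement`;
* `s25` : the frozen S25 conclusion (same inputs);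
* `s27_of_s26` : the frozen S27 statement from the S26 statement.
-/
import Mathlib
import Fermat.Agent.JAC.Final27.PackageFinal38
import Fermat.Agent.JAC.Final.S25Abel57
import Fermat.Agent.JAC.Final.CurveHyp36
import Fermat.Agent.JAC.Hilb.AtlasDone24

set_option autoImplicit false
set_option linter.unusedSectionVars false

universe u u₁ u₂

open CategoryTheory CategoryTheory.Limits AlgebraicGeometry AlgebraicGeometry.RelPicard
  NeronModelInfra GoodReductionJacobian AlgebraicCurve

namespace Fermat.Agent.JAC.Final27.ChainDone38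

open Fermat.Agent.JAC.B2.TwoChart37 Fermat.Agent.JAC.B2.CurveBlock37 Fermat.Agent.JAC.B2.Export37
  Fermat.Agent.JAC.B2.Adapter37
  Fermat.Agent.JAC.Core.AlgAtlas36 Fermat.Agent.JAC.Abel.AbelBlock56
  Fermat.Agent.JAC.Final27.Package38 Fermat.Agent.JAC.Final27.Skeleton1

attribute [local instance] algK₀ algK₁ algK₀₁ alg₀ alg₁

/-- **The two inputs of the S25 final wiring (atlas and Abel data) exist for every S25 curve.** -/
theorem inputsStatement : Chain38.InputsStatement.{u} := by
  intro k _ _ C c _ _ _ ε
  obtain ⟨P⟩ := nonempty_pointedTwoChartData_of_section ε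
  exact ⟨P,
    Fermat.Agent.JAC.Hilb.AtlasDone24.algAtlas
      (Fermat.Agent.JAC.Final.CurveHyp36.curveHyp P.toTwoChartData) (e P ε.2),
    Fermat.Agent.JAC.Abel.SurjBlock57.genus P.toTwoChartData,
    xi₀ P.toTwoChartData (e P ε.2), xi₁ P.toTwoChartData (e P ε.2),
    isRigidCl_xi₀ P.toTwoChartData (e P ε.2), isDegZero_xi₀ P.toTwoChartData (e P ε.2),
    isRigidCl_xi₁ P.toTwoChartData (e P ε.2), isDegZero_xi₁ P.toTwoChartData (e P ε.2),
    bc_xi₀_eq_bc_xi₁ P.toTwoChartData (e P ε.2),
    fun K _ _ _ z hr hz =>
      Fermat.Agent.JAC.Abel.SurjBlock57.hsurj P.toTwoChartData (e P ε.2) K z hr hz⟩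

/-- **The S25 chain with its objects exposed.** -/
theorem chainStatement : ChainStatement.{u} :=
  Chain38.chainStatement_of_inputs inputsStatement

/-- **Every function field of a curve over an algebraically closed field of characteristic zero
has a Jacobian package.** -/
theorem packageStatement : PackageStatement.{u} :=
  PackageFinal38.packageStatement_of_chain chainStatement

/-- The frozen S25 conclusion. -/
theorem s25 (k : Type u) [Field k] [IsAlgClosed k] {C : Scheme.{u}}
    (c : C ⟶ Spec (CommRingCat.of k)) [IsProper c] [SmoothOfRelativeDimension 1 c] [IsIntegral C]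
    (ε : SchemeHomOver (𝟙 (Spec (CommRingCat.of k))) c) :
    ∃ D : RelativePic0Designation k c,
      Nonempty (RepresentsRelSubPic c ε (algEquivZeroCut c ε) D) ∧
        Smooth D.toBase ∧ IsProper D.toBase ∧ GeometricallyConnected D.toBase :=
  Chain38.s25_of_inputs inputsStatement k c ε

/-- **The frozen S27 statement from the S26 statement.** -/
theorem s27_of_s26
    (h26 : ∀ (K : Type (max u₁ u₂)) [Field K] [IsAlgClosed K], S26Statement K)
    (K : Type u₁) (F : Type u₂) [Field K] [Field F] [Algebra K F] [IsAlgClosed K] [CharZero K]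
    [IsCurveOver K F] [Algebra.EssFiniteType K F] (ℓ : ℕ) [Fact ℓ.Prime] (k : ℕ) :
    Nat.card (Pic0.torsion K F (ℓ ^ k)) = ℓ ^ (2 * genusFF K F * k) :=
  PackageFinal38.s27_of_s26_of_chain h26 chainStatement K F ℓ k

end Fermat.Agent.JAC.Final27.ChainDone38
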