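/-
Programme JAC, S27 track (helper57, declared backup of `ChainOfAtlas63`): **the exposed S25 chain,
unconditionally**.

`Chain38.InputsStatement` (the algebraic atlas and the Abel data for every S25 curve) holds:
* pointed two-chart data `P` from `Adapter37.nonempty_pointedTwoChartData_of_section`;
* the algebraic atlas from `Hilb/AtlasDone24.nonempty_algAtlas` on `Final/CurveHyp36.curveHyp`;
* the Abel data `g ξ0 ξ1 hr0 hd0 hr1 hd1 hagree hsurj` from `Abel/AbelBlock56` and
  `Abel/SurjBlock57` (Jacobi inversion).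
Hence `Package38.ChainStatement` (`chainStatement`), which is the `hchain` input of
`PackageFinal38.s27_of_s26_of_chain`, `PackageFinal38.packageStatement_of_chain` and
`PicDivisible63.pic0_nsmul_surjective_of_chain`.
-/
import Fermat.Agent.JAC.Final27.Chain38
import Fermat.Agent.JAC.Final.S25Abel57
import Fermat.Agent.JAC.Final.CurveHyp36
import Fermat.Agent.JAC.Hilb.AtlasDone24

set_option autoImplicit false

universe u

open CategoryTheory CategoryTheory.Limits AlgebraicGeometry AlgebraicGeometry.RelPicard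
  NeronModelInfra GoodReductionJacobian

namespace Fermat.Agent.JAC.Final27.ChainDone57

open Fermat.Agent.JAC.B2.TwoChart37 Fermat.Agent.JAC.B2.CurveBlock37 Fermat.Agent.JAC.B2.Export37
  Fermat.Agent.JAC.B2.Adapter37
  Fermat.Agent.JAC.Core.AlgAtlas36
  Fermat.Agent.JAC.Abel.AbelBlock56
  Fermat.Agent.JAC.Final27.Chain38 Fermat.Agent.JAC.Final27.Package38

attribute [local instance] algK₀ algK₁ algK₀₁ alg₀ alg₁

/-- **The two inputs of the S25 chain (algebraic atlas and Abel data) exist for every S25 curve.** -/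
theorem inputsStatement : InputsStatement.{u} := by
  intro k _ _ C c _ _ _ ε
  obtain ⟨P⟩ := nonempty_pointedTwoChartData_of_section ε
  obtain ⟨𝔸⟩ := Fermat.Agent.JAC.Hilb.AtlasDone24.nonempty_algAtlas
    (Fermat.Agent.JAC.Final.CurveHyp36.curveHyp P.toTwoChartData) (e P ε.2)
  exact ⟨P, 𝔸, Fermat.Agent.JAC.Abel.SurjBlock57.genus P.toTwoChartData,
    xi₀ P.toTwoChartData (e P ε.2), xi₁ P.toTwoChartData (e P ε.2),
    isRigidCl_xi₀ P.toTwoChartData (e P ε.2), isDegZero_xi₀ P.toTwoChartData (e P ε.2),
    isRigidCl_xi₁ P.toTwoChartData (e P ε.2), isDegZero_xi₁ P.toTwoChartData (e P ε.2),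
    bc_xi₀_eq_bc_xi₁ P.toTwoChartData (e P ε.2),
    fun K _ _ _ z hr hz =>
      Fermat.Agent.JAC.Abel.SurjBlock57.hsurj P.toTwoChartData (e P ε.2) K z hr hz⟩

/-- **The exposed S25 chain** (`Package38.ChainStatement`), unconditionally. -/
theorem chainStatement : ChainStatement.{u} :=
  chainStatement_of_inputs inputsStatement

end Fermat.Agent.JAC.Final27.ChainDone57
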