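import Fermat.Agent.JAC.Final27.ChainOfAtlas63
import Fermat.Agent.JAC.Final.CurveHyp36
import Fermat.Agent.JAC.Hilb.AtlasDone24
import Fermat.Agent.JAC.Final27.PackageFinal38

/-!
# JAC (S27 track / MW Div2), helper63: the exposed S25 chain, UNCONDITIONALLY

The algebra-side atlas `Hilb/AtlasDone24.nonempty_algAtlas` (helper24 and the chart team) for the
curve hypotheses `Final/CurveHyp36.curveHyp` (helper36) closes the single input
`ChainOfAtlas63.AtlasStatement` of the exposed chain, exactly as in `Fermat/Agent/S25.lean`.
Consequences, all without hypotheses: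

* `chainStatement : Package38.ChainStatement` (the S25 chain with its objects exposed);
* `packageStatement : Skeleton1.PackageStatement` (Jacobian packages of all function fields of
  curves in one universe);
* `pic0_nsmul_surjective` : `Pic⁰(K, F)` is `n`-divisible, `n ≠ 0` (no S26 involved);
* `s27_of_s26` : the statement of S27 in two universes from the statement of S26.
-/

set_option autoImplicit false

universe u u₁ u₂

open CategoryTheory CategoryTheory.Limits AlgebraicGeometry AlgebraicGeometry.RelPicard
  NeronModelInfra GoodReductionJacobian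

namespace Fermat.Agent.JAC.Final27.ChainFinal63

open Fermat.Agent.JAC.B2.TwoChart37 Fermat.Agent.JAC.B2.CurveBlock37 Fermat.Agent.JAC.B2.Export37
  Fermat.Agent.JAC.B2.Adapter37

attribute [local instance] algK₀ algK₁ algK₀₁ alg₀ alg₁

/-- **The algebraic atlas exists for the pointed two-chart data of every pointed curve.** -/
theorem atlasStatement : Fermat.Agent.JAC.Final27.ChainOfAtlas63.AtlasStatement.{u} :=
  fun _ _ _ _ _ _ _ _ _ P =>
    Fermat.Agent.JAC.Hilb.AtlasDone24.nonempty_algAtlas
      (Fermat.Agent.JAC.Final.CurveHyp36.curveHyp P.toTwoChartData) _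

/-- **The S25 chain with its objects exposed.** -/
theorem chainStatement : Fermat.Agent.JAC.Final27.Package38.ChainStatement.{u} :=
  Fermat.Agent.JAC.Final27.ChainOfAtlas63.chainStatement_of_algAtlas atlasStatement

/-- **Jacobian packages exist for all function fields of curves** (one universe). -/
theorem packageStatement : Fermat.Agent.JAC.Final27.Skeleton1.PackageStatement.{u} :=
  Fermat.Agent.JAC.Final27.PackageFinal38.packageStatement_of_chain chainStatement

/-- **`Pic⁰(K, F)` is `n`-divisible**, `n ≠ 0`, for every function field `F / K` of a curve over an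
algebraically closed field of characteristic zero (one universe). -/
theorem pic0_nsmul_surjective (K F : Type u) [Field K] [Field F] [Algebra K F]
    [IsAlgClosed K] [CharZero K] [AlgebraicCurve.IsCurveOver K F] [Algebra.EssFiniteType K F]
    (n : ℕ) (hn : n ≠ 0) (c : AlgebraicCurve.Pic0 K F) :
    ∃ d : AlgebraicCurve.Pic0 K F, n • d = c :=
  Fermat.Agent.JAC.Final27.PicDivisible63.pic0_nsmul_surjective_of_chain chainStatement K F n hn c

/-- **The statement of S27 (two universes) from the statement of S26.** -/
theorem s27_of_s26
    (h26 : ∀ (K : Type (max u₁ u₂)) [Field K] [IsAlgClosed K],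
      Fermat.Agent.JAC.Final27.Skeleton1.S26Statement K)
    (K : Type u₁) (F : Type u₂) [Field K] [Field F] [Algebra K F] [IsAlgClosed K] [CharZero K]
    [AlgebraicCurve.IsCurveOver K F] [Algebra.EssFiniteType K F] (ℓ : ℕ) [Fact ℓ.Prime] (k : ℕ) :
    Nat.card (AlgebraicCurve.Pic0.torsion K F (ℓ ^ k)) =
      ℓ ^ (2 * AlgebraicCurve.genusFF K F * k) :=
  Fermat.Agent.JAC.Final27.PackageFinal38.s27_of_s26_of_chain h26 chainStatement K F ℓ k

end Fermat.Agent.JAC.Final27.ChainFinal63
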