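import Mathlib
import Fermat.Agent.JAC.Final.S25Assembly10
import Fermat.Agent.JAC.Final.RelModel33
import Fermat.Agent.JAC.FF.ClassesDivisible63
import Fermat.Agent.JAC.FF.JacGroupLaw85

/-!
# JAC (S27 track C5c / MW Div2), helper63: exports of the S25 chain for its consumers

`S25Assembly10.s25_of_inputs` / `s25_of_relModel` prove that the Jacobian `jacRep hdesc A` is
smooth, proper and geometrically connected only INSIDE the existential statement of S25.  The
consumers of the Jacobian (the dimension count `Tangent/JacTangent70`, the group law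
`FF/JacGroupLaw85`, divisibility `FF/ClassesDivisible63`) need these properties for the scheme
`jacRep hdesc A` itself.  This file exports them, under the hypotheses of `s25_of_relModel`
verbatim, and draws the two consequences needed downstream, on the model `M.A k` of the classes
over the base field (for `M = RelModel33.relModel`: on `picZero hdeg e k`):

* `relModel_divisible` / `picZero_divisible`: every element is an `n`-th power, `(n : k) ≠ 0`;
* `natCard_torsion_relModel` / `natCard_torsion_picZero`: the number of `n`-torsion elements is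
  `n ^ (2 * g')` if the Jacobian is smooth of relative dimension `g'` (from the statement of S26,
  consumed as a hypothesis in its literal shape).
-/

set_option autoImplicit false

universe u

open CategoryTheory Limits Opposite AlgebraicGeometry AlgebraicGeometry.RelPicard NeronModelInfra
  GoodReductionJacobian MonoidalCategory CartesianMonoidalCategory MonObj

namespace Fermat.Agent.JAC.Final27.JacExport63

open Fermat.Agent.JAC.Repr.StdCover10 Fermat.Agent.JAC.Repr.AllSchemes10
  Fermat.Agent.JAC.Repr.Wiring10 Fermat.Agent.JAC.Repr.Restrict10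
  Fermat.Agent.JAC.Repr.Jacobian10 Fermat.Agent.JAC.Repr.Lifting10
  Fermat.Agent.JAC.Repr.Group10 Fermat.Agent.JAC.Repr.GroupProd10
  Fermat.Agent.JAC.Repr.RelModel10 Fermat.Agent.JAC.Grp.OverAff6
  Fermat.Agent.JAC.AE0.DegZero35 Fermat.Agent.JAC.AE0.Transfer35
  Fermat.Agent.JAC.Glue.SmallClasses23 Fermat.Agent.JAC.Final.S25Assembly10

/-! ### The properties of the Jacobian -/

section Props

variable (k : Type u) [Field k] [IsAlgClosed k] {C : Scheme.{u}}
  (c : C ⟶ Spec (CommRingCat.of k)) [IsProper c] [SmoothOfRelativeDimension 1 c] [IsIntegral C]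
  (ε : SchemeHomOver (𝟙 (Spec (CommRingCat.of k))) c)

/-- **The properties of the Jacobian**, under the hypotheses of `S25Assembly10.s25_of_inputs`
verbatim. -/
theorem jac_props_of_inputs
    (d : FibreDegree c)
    (hdesc : CutDescent (degZeroCut d ε))
    (A : Atlas (affRestrict (G (degZeroCut d ε))))
    (hft : ∀ β, LocallyOfFiniteType (A.x β).str)
    [grp : ∀ b : AffIdx (Spec (CommRingCat.of k)), Group (CutClasses (degZeroCut d ε) b.2)]
    (res_mul : ∀ {b b' : AffIdx (Spec (CommRingCat.of k))} (ψ : SchemeHomOver b'.2 b.2)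
      (x y : CutClasses (degZeroCut d ε) b.2), cutMap ψ (x * y) = cutMap ψ x * cutMap ψ y)
    (hcomm : ∀ (b : AffIdx (Spec (CommRingCat.of k))) (x y : CutClasses (degZeroCut d ε) b.2),
      x * y = y * x)
    (hFS : CutFormallySmooth (degZeroCut d ε))
    (g : ℕ)
    (a : Over.mk c ⟶ Over.mk (toBase (jacRep hdesc A)))
    (hG :
      letI := grpObj (jacRep hdesc A) res_mul
      haveI := isCommMonObj (jacRep hdesc A) res_mul hcomm
      ∀ (K : Type u) [Field K] [IsAlgClosed K]
        (t : Spec (CommRingCat.of K) ⟶ Spec (CommRingCat.of k))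
        (z : Over.mk t ⟶ Over.mk (toBase (jacRep hdesc A))),
        ∃ y : Fin g → (Over.mk t ⟶ Over.mk c), ∏ i, y i ≫ a = z) :
    Smooth (toBase (jacRep hdesc A)) ∧ IsProper (toBase (jacRep hdesc A)) ∧
      GeometricallyConnected (toBase (jacRep hdesc A)) ∧
        GeometricallyIntegral (toBase (jacRep hdesc A)) := by
  let _ := grpObj (jacRep hdesc A) res_mul
  have := isCommMonObj (jacRep hdesc A) res_mul hcomm
  have hlft : LocallyOfFiniteType (toBase (jacRep hdesc A)) :=
    haveI : IsZariskiLocalAtSource @LocallyOfFiniteType.{u} :=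
      HasRingHomProperty.instIsZariskiLocalAtSource
    toBase_of_charts hdesc A @LocallyOfFiniteType hft
  exact Fermat.Agent.JAC.Prop.JacobianProps27.jacobian_properties c (toBase (jacRep hdesc A))
    (hasInfinitesimalLifting_toBase (jacRep hdesc A) hFS) a g hG

/-- **The properties of the Jacobian**, under the hypotheses of `S25Assembly10.s25_of_relModel`
verbatim. -/
theorem jac_props_of_relModel
    (d : FibreDegree c)
    (hdesc : CutDescent (degZeroCut d ε))
    (A : Atlas (affRestrict (G (degZeroCut d ε))))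
    (hft : ∀ β, LocallyOfFiniteType (A.x β).str)
    (M : RelModel.{u + 1} (degZeroCut d ε))
    (hlift : ∀ (B : Type u) [CommRing B] [Algebra k B] (I : Ideal B), I ^ 2 = ⊥ →
      Function.Surjective (M.map (Ideal.Quotient.mkₐ k I)))
    (g : ℕ)
    (a : Over.mk c ⟶ Over.mk (toBase (jacRep hdesc A)))
    (hG : ∀ (K : Type u) [Field K] [IsAlgClosed K]
      (t : Spec (CommRingCat.of K) ⟶ Spec (CommRingCat.of k))
      (ξ : CutClasses (degZeroCut d ε) t),
      ∃ y : Fin g → (Over.mk t ⟶ Over.mk c),
        @Finset.prod _ _ (M.commGroup ⟨CommRingCat.of K, t⟩).toCommMonoid Finset.univ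
          (fun i => overHomEquiv (jacRep hdesc A) t (y i ≫ a)) = ξ) :
    Smooth (toBase (jacRep hdesc A)) ∧ IsProper (toBase (jacRep hdesc A)) ∧
      GeometricallyConnected (toBase (jacRep hdesc A)) ∧
        GeometricallyIntegral (toBase (jacRep hdesc A)) :=
  letI : ∀ b : AffIdx (Spec (CommRingCat.of k)), CommGroup (CutClasses (degZeroCut d ε) b.2) :=
    fun b => M.commGroup b
  jac_props_of_inputs k c ε d hdesc A hft (fun ψ x y => M.res_mul ψ x y)
    (fun _ x y => mul_comm x y) (M.cutFormallySmooth hlift) g a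
    (fun K _ _ t z => exists_prod_eq_of_classes (jacRep hdesc A)
      (fun ψ x y => M.res_mul ψ x y) a g t (hG K t) z)

end Props

/-! ### The standard affine index of the base field -/

section Std

variable {k : Type u} [Field k]

/-- The affine index `Spec k ⟶ Spec k` of the identity. -/
noncomputable abbrev idx₀ (k : Type u) [Field k] : AffIdx (Spec (CommRingCat.of k)) :=
  ⟨CommRingCat.of k, 𝟙 (Spec (CommRingCat.of k))⟩

/-- The algebra structure extracted from the identity of `Spec k` is the standard one. -/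
theorem algOf_idx₀ : algOf (idx₀ k) = Algebra.id k := by
  apply Algebra.algebra_ext
  intro r
  change (Spec.preimage (𝟙 (Spec (CommRingCat.of k)))).hom r = r
  have h : Spec.preimage (𝟙 (Spec (CommRingCat.of k))) = 𝟙 (CommRingCat.of k) := by
    apply Spec.map_injective
    rw [Spec.map_preimage, Spec.map_id]
  rw [h]
  rfl

end Std

/-! ### Consequences on the model of the classes over the base field -/

section Model

variable (k : Type u) [Field k] [IsAlgClosed k] {C : Scheme.{u}}
  (c : C ⟶ Spec (CommRingCat.of k)) [IsProper c] [SmoothOfRelativeDimension 1 c] [IsIntegral C]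
  (ε : SchemeHomOver (𝟙 (Spec (CommRingCat.of k))) c)

/-- **Divisibility of the model over the base field**, under the hypotheses of
`S25Assembly10.s25_of_relModel` verbatim: every element of `M.A k` is an `n`-th power for
`(n : k) ≠ 0`. -/
theorem relModel_divisible
    (d : FibreDegree c)
    (hdesc : CutDescent (degZeroCut d ε))
    (A : Atlas (affRestrict (G (degZeroCut d ε))))
    (hft : ∀ β, LocallyOfFiniteType (A.x β).str)
    (M : RelModel.{u + 1} (degZeroCut d ε))
    (hlift : ∀ (B : Type u) [CommRing B] [Algebra k B] (I : Ideal B), I ^ 2 = ⊥ →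
      Function.Surjective (M.map (Ideal.Quotient.mkₐ k I)))
    (g : ℕ)
    (a : Over.mk c ⟶ Over.mk (toBase (jacRep hdesc A)))
    (hG : ∀ (K : Type u) [Field K] [IsAlgClosed K]
      (t : Spec (CommRingCat.of K) ⟶ Spec (CommRingCat.of k))
      (ξ : CutClasses (degZeroCut d ε) t),
      ∃ y : Fin g → (Over.mk t ⟶ Over.mk c),
        @Finset.prod _ _ (M.commGroup ⟨CommRingCat.of K, t⟩).toCommMonoid Finset.univ
          (fun i => overHomEquiv (jacRep hdesc A) t (y i ≫ a)) = ξ)
    (n : ℕ) (hn : (n : k) ≠ 0) (x : M.A k) : ∃ y : M.A k, y ^ n = x := by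
  obtain ⟨hsm, hpr, hconn, -⟩ := jac_props_of_relModel k c ε d hdesc A hft M hlift g a hG
  have key : ∀ (inst : Algebra k k), inst = algOf (idx₀ k) →
      ∀ x : @RelModel.A k _ C c ε (degZeroCut d ε) M k _ inst,
        ∃ y : @RelModel.A k _ C c ε (degZeroCut d ε) M k _ inst, y ^ n = x := by
    rintro _ rfl x
    let _ : ∀ b : AffIdx (Spec (CommRingCat.of k)), Group (CutClasses (degZeroCut d ε) b.2) :=
      fun b => (M.commGroup b).toGroup
    obtain ⟨ζ, hζ⟩ := Fermat.Agent.JAC.FF.ClassesDivisible63.exists_pow_eq (jacRep hdesc A)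
      (fun ψ x y => M.res_mul ψ x y) (fun b x y => @mul_comm _ (M.commGroup b).toCommMagma x y)
      n hn ((M.equiv (idx₀ k)).symm x)
    refine ⟨M.equiv (idx₀ k) ζ, ?_⟩
    have hpow : ∀ (ζ : CutClasses (degZeroCut d ε) (idx₀ k).2) (m : ℕ),
        letI : Group (CutClasses (degZeroCut d ε) (idx₀ k).2) := (M.commGroup (idx₀ k)).toGroup
        M.equiv (idx₀ k) (ζ ^ m) = M.equiv (idx₀ k) ζ ^ m :=
      fun ζ m => (M.equiv (idx₀ k)).apply_symm_apply _
    rw [← hpow]
    have h := congrArg (M.equiv (idx₀ k)) hζ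
    rwa [Equiv.apply_symm_apply] at h
  exact key _ algOf_idx₀.symm x

/-- **The torsion count on the model over the base field**, under the hypotheses of
`S25Assembly10.s25_of_relModel` verbatim, from the statement of S26 (consumed as the hypothesis
`h26` in its literal shape) and the relative dimension `g'` of the Jacobian. -/
theorem natCard_torsion_relModel
    (h26 : ∀ {A : Scheme.{u}} (f : A ⟶ Spec (CommRingCat.of k)) (L : RelativeGroupLaw k f)
      (_ : L.IsCommutative) (_ : AbelianSchemePropertyBundle k f) (g : ℕ)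
      [SmoothOfRelativeDimension g f] (n : ℕ) (_ : (n : k) ≠ 0),
      Nat.card {x : SchemeHomOver (𝟙 (Spec (CommRingCat.of k))) f //
        L.IsTorsionPoint (𝟙 (Spec (CommRingCat.of k))) n x} = n ^ (2 * g))
    (d : FibreDegree c)
    (hdesc : CutDescent (degZeroCut d ε))
    (A : Atlas (affRestrict (G (degZeroCut d ε))))
    (hft : ∀ β, LocallyOfFiniteType (A.x β).str)
    (M : RelModel.{u + 1} (degZeroCut d ε))
    (hlift : ∀ (B : Type u) [CommRing B] [Algebra k B] (I : Ideal B), I ^ 2 = ⊥ →
      Function.Surjective (M.map (Ideal.Quotient.mkₐ k I)))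
    (g : ℕ)
    (a : Over.mk c ⟶ Over.mk (toBase (jacRep hdesc A)))
    (hG : ∀ (K : Type u) [Field K] [IsAlgClosed K]
      (t : Spec (CommRingCat.of K) ⟶ Spec (CommRingCat.of k))
      (ξ : CutClasses (degZeroCut d ε) t),
      ∃ y : Fin g → (Over.mk t ⟶ Over.mk c),
        @Finset.prod _ _ (M.commGroup ⟨CommRingCat.of K, t⟩).toCommMonoid Finset.univ
          (fun i => overHomEquiv (jacRep hdesc A) t (y i ≫ a)) = ξ)
    (g' : ℕ) [SmoothOfRelativeDimension g' (toBase (jacRep hdesc A))]
    (n : ℕ) (hn : (n : k) ≠ 0) :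
    Nat.card {x : M.A k // x ^ n = 1} = n ^ (2 * g') := by
  obtain ⟨hsm, hpr, hconn, -⟩ := jac_props_of_relModel k c ε d hdesc A hft M hlift g a hG
  have key : ∀ (inst : Algebra k k), inst = algOf (idx₀ k) →
      Nat.card {x : @RelModel.A k _ C c ε (degZeroCut d ε) M k _ inst // x ^ n = 1} =
        n ^ (2 * g') := by
    rintro _ rfl
    let _ : ∀ b : AffIdx (Spec (CommRingCat.of k)), Group (CutClasses (degZeroCut d ε) b.2) :=
      fun b => (M.commGroup b).toGroup
    have h := Fermat.Agent.JAC.FF.JacGroupLaw85.natCard_torsion_classes (jacRep hdesc A)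
      (fun ψ x y => M.res_mul ψ x y) (fun b x y => @mul_comm _ (M.commGroup b).toCommMagma x y)
      h26 g' n hn
    rw [← h]
    have hpow : ∀ (ζ : CutClasses (degZeroCut d ε) (idx₀ k).2) (m : ℕ),
        letI : Group (CutClasses (degZeroCut d ε) (idx₀ k).2) := (M.commGroup (idx₀ k)).toGroup
        M.equiv (idx₀ k) (ζ ^ m) = M.equiv (idx₀ k) ζ ^ m :=
      fun ζ m => (M.equiv (idx₀ k)).apply_symm_apply _
    have hone :
        letI : Group (CutClasses (degZeroCut d ε) (idx₀ k).2) := (M.commGroup (idx₀ k)).toGroup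
        M.equiv (idx₀ k) 1 = 1 := (M.equiv (idx₀ k)).apply_symm_apply _
    refine (Nat.card_congr ((M.equiv (idx₀ k)).subtypeEquiv fun ζ => ?_)).symm
    rw [← hpow, ← hone]
    exact ((M.equiv (idx₀ k)).injective.eq_iff).symm
  exact key _ algOf_idx₀.symm

end Model

/-! ### The case of the dictionary `RelModel33.relModel`: rigid classes of degree zero -/

section PicZero

open scoped TensorProduct
open Fermat.Agent.JAC.Final
open Fermat.Agent.JAC.Core.Defs36 Fermat.Agent.JAC.Core.ConstFamily36
  Fermat.Agent.JAC.Core.AlgAtlas36 Fermat.Agent.JAC.Core.Degree36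
  Fermat.Agent.JAC.Final.SchemeDict36 Fermat.Agent.JAC.Final.RelModel33
  Fermat.Agent.JAC.Final.CutDescent30

variable {k : Type u} [Field k] [IsAlgClosed k] {C : Scheme.{u}}
  {c : C ⟶ Spec (CommRingCat.of k)} [IsProper c] [SmoothOfRelativeDimension 1 c] [IsIntegral C]
  {ε : SchemeHomOver (𝟙 (Spec (CommRingCat.of k))) c}
variable {A0 A1 A01 : Type u} [CommRing A0] [CommRing A1] [CommRing A01]
  [Algebra k A0] [Algebra k A1] [Algebra k A01] [Algebra A0 A01] [Algebra A1 A01]
  [IsScalarTower k A0 A01] [IsScalarTower k A1 A01] {t : A0} {s : A1}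
  [IsLocalization.Away t A01] [IsLocalization.Away s A01]
  {e : A01 →ₐ[k] k} {d : FibreDegree c}

/-- **The properties of the Jacobian**, under the hypotheses of `RelModel33.s25_of_schemeDict`
verbatim. -/
theorem jac_props_of_schemeDict
    (S : SchemeDict A0 A1 A01 t s ε e d) (𝔸 : AlgAtlas k A0 A1 A01 t s e)
    (hdeg : DegAdditive k A0 A1 A01 t s)
    (g : ℕ)
    (a : Over.mk c ⟶
      Over.mk (toBase (jacRep (cutDescent_degZeroCut (ε := ε) d) (SchemeDict36.atlas S 𝔸))))
    (hG : ∀ (K : Type u) [Field K] [IsAlgClosed K]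
      (x : Spec (CommRingCat.of K) ⟶ Spec (CommRingCat.of k))
      (ξ : CutClasses (Fermat.Agent.JAC.AE0.Transfer35.degZeroCut d ε) x),
      ∃ y : Fin g → (Over.mk x ⟶ Over.mk c),
        @Finset.prod _ _ ((relModel hdeg S).commGroup ⟨CommRingCat.of K, x⟩).toCommMonoid
          Finset.univ
          (fun i => overHomEquiv
            (jacRep (cutDescent_degZeroCut (ε := ε) d) (SchemeDict36.atlas S 𝔸)) x (y i ≫ a)) =
              ξ) :
    Smooth (toBase (jacRep (cutDescent_degZeroCut (ε := ε) d) (SchemeDict36.atlas S 𝔸))) ∧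
      IsProper (toBase (jacRep (cutDescent_degZeroCut (ε := ε) d) (SchemeDict36.atlas S 𝔸))) ∧
      GeometricallyConnected
        (toBase (jacRep (cutDescent_degZeroCut (ε := ε) d) (SchemeDict36.atlas S 𝔸))) ∧
      GeometricallyIntegral
        (toBase (jacRep (cutDescent_degZeroCut (ε := ε) d) (SchemeDict36.atlas S 𝔸))) :=
  jac_props_of_relModel k c ε d (cutDescent_degZeroCut (ε := ε) d)
    (SchemeDict36.atlas S 𝔸) (fun i => locallyOfFiniteType_atlas_x_str S 𝔸 i)
    (relModel hdeg S) (fun B _ _ I hI => relModel_lift hdeg S B I hI) g a hG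

/-- **Divisibility of the rigid classes of degree zero over the base field**, under the
hypotheses of `RelModel33.s25_of_schemeDict` verbatim. -/
theorem picZero_divisible
    (S : SchemeDict A0 A1 A01 t s ε e d) (𝔸 : AlgAtlas k A0 A1 A01 t s e)
    (hdeg : DegAdditive k A0 A1 A01 t s)
    (g : ℕ)
    (a : Over.mk c ⟶
      Over.mk (toBase (jacRep (cutDescent_degZeroCut (ε := ε) d) (SchemeDict36.atlas S 𝔸))))
    (hG : ∀ (K : Type u) [Field K] [IsAlgClosed K]
      (x : Spec (CommRingCat.of K) ⟶ Spec (CommRingCat.of k))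
      (ξ : CutClasses (Fermat.Agent.JAC.AE0.Transfer35.degZeroCut d ε) x),
      ∃ y : Fin g → (Over.mk x ⟶ Over.mk c),
        @Finset.prod _ _ ((relModel hdeg S).commGroup ⟨CommRingCat.of K, x⟩).toCommMonoid
          Finset.univ
          (fun i => overHomEquiv
            (jacRep (cutDescent_degZeroCut (ε := ε) d) (SchemeDict36.atlas S 𝔸)) x (y i ≫ a)) =
              ξ)
    (n : ℕ) (hn : (n : k) ≠ 0) (ξ : picZero hdeg e k) : ∃ ζ : picZero hdeg e k, ζ ^ n = ξ :=
  relModel_divisible k c ε d (cutDescent_degZeroCut (ε := ε) d)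
    (SchemeDict36.atlas S 𝔸) (fun i => locallyOfFiniteType_atlas_x_str S 𝔸 i)
    (relModel hdeg S) (fun B _ _ I hI => relModel_lift hdeg S B I hI) g a hG n hn ξ

/-- Divisibility, on classes: a rigid class of degree zero over the algebraically closed base
field is the `n`-th power of a rigid class of degree zero, `(n : k) ≠ 0`. -/
theorem exists_pow_eq_of_isRigidCl_of_isDegZero
    (S : SchemeDict A0 A1 A01 t s ε e d) (𝔸 : AlgAtlas k A0 A1 A01 t s e)
    (hdeg : DegAdditive k A0 A1 A01 t s)
    (g : ℕ)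
    (a : Over.mk c ⟶
      Over.mk (toBase (jacRep (cutDescent_degZeroCut (ε := ε) d) (SchemeDict36.atlas S 𝔸))))
    (hG : ∀ (K : Type u) [Field K] [IsAlgClosed K]
      (x : Spec (CommRingCat.of K) ⟶ Spec (CommRingCat.of k))
      (ξ : CutClasses (Fermat.Agent.JAC.AE0.Transfer35.degZeroCut d ε) x),
      ∃ y : Fin g → (Over.mk x ⟶ Over.mk c),
        @Finset.prod _ _ ((relModel hdeg S).commGroup ⟨CommRingCat.of K, x⟩).toCommMonoid
          Finset.univ
          (fun i => overHomEquiv
            (jacRep (cutDescent_degZeroCut (ε := ε) d) (SchemeDict36.atlas S 𝔸)) x (y i ≫ a)) =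
              ξ)
    (n : ℕ) (hn : (n : k) ≠ 0) (ξ : Cl k A0 A1 A01 t s k) (hr : IsRigidCl e k ξ)
    (hd : IsDegZero k ξ) :
    ∃ ζ : Cl k A0 A1 A01 t s k, IsRigidCl e k ζ ∧ IsDegZero k ζ ∧ ζ ^ n = ξ := by
  obtain ⟨ζ, hζ⟩ := picZero_divisible S 𝔸 hdeg g a hG n hn ⟨ξ, hr, hd⟩
  exact ⟨ζ.1, ζ.2.1, ζ.2.2, congrArg Subtype.val hζ⟩

/-- **The torsion count on the rigid classes of degree zero over the base field**, under the
hypotheses of `RelModel33.s25_of_schemeDict` verbatim, from the statement of S26 and the relative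
dimension `g'` of the Jacobian. -/
theorem natCard_torsion_picZero
    (h26 : ∀ {A : Scheme.{u}} (f : A ⟶ Spec (CommRingCat.of k)) (L : RelativeGroupLaw k f)
      (_ : L.IsCommutative) (_ : AbelianSchemePropertyBundle k f) (g : ℕ)
      [SmoothOfRelativeDimension g f] (n : ℕ) (_ : (n : k) ≠ 0),
      Nat.card {x : SchemeHomOver (𝟙 (Spec (CommRingCat.of k))) f //
        L.IsTorsionPoint (𝟙 (Spec (CommRingCat.of k))) n x} = n ^ (2 * g))
    (S : SchemeDict A0 A1 A01 t s ε e d) (𝔸 : AlgAtlas k A0 A1 A01 t s e)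
    (hdeg : DegAdditive k A0 A1 A01 t s)
    (g : ℕ)
    (a : Over.mk c ⟶
      Over.mk (toBase (jacRep (cutDescent_degZeroCut (ε := ε) d) (SchemeDict36.atlas S 𝔸))))
    (hG : ∀ (K : Type u) [Field K] [IsAlgClosed K]
      (x : Spec (CommRingCat.of K) ⟶ Spec (CommRingCat.of k))
      (ξ : CutClasses (Fermat.Agent.JAC.AE0.Transfer35.degZeroCut d ε) x),
      ∃ y : Fin g → (Over.mk x ⟶ Over.mk c),
        @Finset.prod _ _ ((relModel hdeg S).commGroup ⟨CommRingCat.of K, x⟩).toCommMonoid
          Finset.univ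
          (fun i => overHomEquiv
            (jacRep (cutDescent_degZeroCut (ε := ε) d) (SchemeDict36.atlas S 𝔸)) x (y i ≫ a)) =
              ξ)
    (g' : ℕ)
    [SmoothOfRelativeDimension g'
      (toBase (jacRep (cutDescent_degZeroCut (ε := ε) d) (SchemeDict36.atlas S 𝔸)))]
    (n : ℕ) (hn : (n : k) ≠ 0) :
    Nat.card {ξ : picZero hdeg e k // ξ ^ n = 1} = n ^ (2 * g') :=
  natCard_torsion_relModel k c ε h26 d (cutDescent_degZeroCut (ε := ε) d)
    (SchemeDict36.atlas S 𝔸) (fun i => locallyOfFiniteType_atlas_x_str S 𝔸 i)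
    (relModel hdeg S) (fun B _ _ I hI => relModel_lift hdeg S B I hI) g a hG g' n hn

end PicZero

end Fermat.Agent.JAC.Final27.JacExport63
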