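import Mathlib
import Fermat.Agent.JAC.Final27.JacExport63
import Fermat.Agent.JAC.Final.JacData27
import Fermat.Agent.JAC.Fibre.PicZeroFibre38
import Fermat.Agent.JAC.FF.CurveFunctionField9
import Fermat.Agent.JAC.Final27.TransportProof9
import Fermat.Agent.JAC.Final27.Package38

/-!
# JAC (S27 track / MW Div2), helper63: divisibility of `Pic⁰` from the S25 chain, WITHOUT dimension

The weak Mordell–Weil part of S17 consumes only the `n`-divisibility of `Pic⁰(K, F)` for the
function field `F` of a curve over an algebraically closed field `K` with `(n : K) ≠ 0`.  This does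
not need the relative dimension of the Jacobian (hence neither the tangent space computation nor
S26), only that the Jacobian of the S25 chain is a smooth, proper, geometrically connected
commutative group scheme whose `k`-points are the rigid classes of degree zero.  This file
composes:

* `FF/ClassesDivisible63.exists_pow_eq` (divisibility of the `k`-points of the Jacobian) through
  the properties `JacData27.JacProps` of the Jacobian of the chain
  (`relModel_divisible_of_props`, `picZero_divisible_of_props`);
* `Fibre/PicZeroFibre38` (`Pic⁰` of the function field of the fibre is `picZero hdeg e k`):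
  `pic0_divisible_fibre_of_props`, and `pic0_divisible_functionField` on `K(C)`;
* `FF/CurveScheme9`, `FF/CurveFunctionField9`, `Final27/TransportProof9` (the curve of a function
  field and the transport of `Pic⁰` along isomorphisms of function fields):
  `pic0_nsmul_surjective_of_chain`.

The chain statement consumed is `Package38.ChainStatement` (helper38): the S25 chain runs for every
pointed curve with its internal objects exposed (what the final assembly of S25 proves before it
forgets the objects).
-/

set_option autoImplicit false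
set_option linter.unusedSectionVars false
set_option linter.style.haveILetI false

universe u

open CategoryTheory Limits Opposite AlgebraicGeometry AlgebraicGeometry.RelPicard NeronModelInfra
  GoodReductionJacobian

namespace Fermat.Agent.JAC.Final27.PicDivisible63

open Fermat.Agent.JAC.Repr.StdCover10 Fermat.Agent.JAC.Repr.AllSchemes10
  Fermat.Agent.JAC.Repr.Wiring10 Fermat.Agent.JAC.Repr.Restrict10
  Fermat.Agent.JAC.Repr.Jacobian10 Fermat.Agent.JAC.Repr.Lifting10
  Fermat.Agent.JAC.Repr.Group10 Fermat.Agent.JAC.Repr.GroupProd10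
  Fermat.Agent.JAC.Repr.RelModel10 Fermat.Agent.JAC.Grp.OverAff6
  Fermat.Agent.JAC.AE0.DegZero35 Fermat.Agent.JAC.AE0.Transfer35
  Fermat.Agent.JAC.Glue.SmallClasses23 Fermat.Agent.JAC.Final.S25Assembly10
  Fermat.Agent.JAC.Final.JacData27 Fermat.Agent.JAC.Final27.JacExport63

/-! ### A general transport lemma -/

/-- Divisibility transports along additive equivalences. -/
theorem divisible_of_addEquiv {G H : Type*} [AddMonoid G] [AddMonoid H] (φ : G ≃+ H) (n : ℕ)
    (h : ∀ x : G, ∃ y : G, n • y = x) (x : H) : ∃ y : H, n • y = x := by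
  obtain ⟨y, hy⟩ := h (φ.symm x)
  refine ⟨φ y, ?_⟩
  rw [← map_nsmul, hy, AddEquiv.apply_symm_apply]

/-! ### Divisibility of the model over the base field from the properties of the Jacobian -/

section Model

variable (k : Type u) [Field k] [IsAlgClosed k] {C : Scheme.{u}}
  (c : C ⟶ Spec (CommRingCat.of k)) [IsProper c] [SmoothOfRelativeDimension 1 c] [IsIntegral C]
  (ε : SchemeHomOver (𝟙 (Spec (CommRingCat.of k))) c)

/-- **Divisibility of the model over the base field** from the properties `JacProps` of the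
Jacobian of the chain: every element of `M.A k` is an `n`-th power for `(n : k) ≠ 0`. -/
theorem relModel_divisible_of_props {J : Scheme.{u}}
    (d : FibreDegree c)
    (rep : (G (degZeroCut d ε)).RepresentableBy J)
    (M : RelModel.{u + 1} (degZeroCut d ε))
    (hprops : JacProps k (toBase rep))
    (n : ℕ) (hn : (n : k) ≠ 0) (x : M.A k) : ∃ y : M.A k, y ^ n = x := by
  obtain ⟨-, hsm, hpr, hconn, -⟩ := hprops
  have key : ∀ (inst : Algebra k k), inst = algOf (idx₀ k) →
      ∀ x : @RelModel.A k _ C c ε (degZeroCut d ε) M k _ inst,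
        ∃ y : @RelModel.A k _ C c ε (degZeroCut d ε) M k _ inst, y ^ n = x := by
    rintro _ rfl x
    let _ : ∀ b : AffIdx (Spec (CommRingCat.of k)), Group (CutClasses (degZeroCut d ε) b.2) :=
      fun b => (M.commGroup b).toGroup
    obtain ⟨ζ, hζ⟩ := Fermat.Agent.JAC.FF.ClassesDivisible63.exists_pow_eq rep
      (fun ψ x y => M.res_mul ψ x y) (fun b x y => @mul_comm _ (M.commGroup b).toCommMagma x y)
      n hn ((M.equiv (idx₀ k)).symm x)
    refine ⟨M.equiv (idx₀ k) ζ, ?_⟩
    have hpow : ∀ (ζ : CutClasses (degZeroCut d ε) (idx₀ k).2) (m : ℕ),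
        letI : Group (CutClasses (degZeroCut d ε) (idx₀ k).2) := (M.commGroup (idx₀ k)).toGroup
        M.equiv (idx₀ k) (ζ ^ m) = M.equiv (idx₀ k) ζ ^ m :=
      fun ζ m => (M.equiv (idx₀ k)).apply_symm_apply _
    rw [← hpow]
    have h := congrArg (M.equiv (idx₀ k)) hζ
    rwa [Equiv.apply_symm_apply] at h
  exact key _ algOf_idx₀.symm x

end Model

/-! ### Rigid classes of degree zero -/

section PicZero

open scoped TensorProduct
open Fermat.Agent.JAC.Final
open Fermat.Agent.JAC.Core.Defs36 Fermat.Agent.JAC.Core.ConstFamily36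
  Fermat.Agent.JAC.Core.AlgAtlas36 Fermat.Agent.JAC.Core.Degree36
  Fermat.Agent.JAC.Final.SchemeDict36 Fermat.Agent.JAC.Final.RelModel33
  Fermat.Agent.JAC.Final.CutDescent30

variable {k : Type u} [Field k] [IsAlgClosed k] {C : Scheme.{u}}
  {c : C ⟶ Spec (CommRingCat.of k)} [IsProper c] [SmoothOfRelativeDimension 1 c] [IsIntegral C]
  {ε : SchemeHomOver (𝟙 (Spec (CommRingCat.of k))) c}
variable {A0 A1 A01 : Type u} [CommRing A0] [CommRing A1] [CommRing A01]
  [Algebra k A0] [Algebra k A1] [Algebra k A01] [Algebra A0 A01] [Algebra A1 A01]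
  [IsScalarTower k A0 A01] [IsScalarTower k A1 A01] {t : A0} {s : A1}
  [IsLocalization.Away t A01] [IsLocalization.Away s A01]
  {e : A01 →ₐ[k] k} {d : FibreDegree c} {J : Scheme.{u}}

/-- **Divisibility of the rigid classes of degree zero over the base field** from the properties
of a scheme representing the degree-zero cut. -/
theorem picZero_divisible_of_props
    (S : SchemeDict A0 A1 A01 t s ε e d) (hdeg : DegAdditive k A0 A1 A01 t s)
    (rep : (G (degZeroCut d ε)).RepresentableBy J) (hprops : JacProps k (toBase rep))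
    (n : ℕ) (hn : (n : k) ≠ 0) (ξ : picZero hdeg e k) : ∃ ζ : picZero hdeg e k, ζ ^ n = ξ :=
  relModel_divisible_of_props k c ε d rep (relModel hdeg S) hprops n hn ξ

/-- The same on classes. -/
theorem exists_pow_eq_of_props
    (S : SchemeDict A0 A1 A01 t s ε e d) (hdeg : DegAdditive k A0 A1 A01 t s)
    (rep : (G (degZeroCut d ε)).RepresentableBy J) (hprops : JacProps k (toBase rep))
    (n : ℕ) (hn : (n : k) ≠ 0) (ξ : Cl k A0 A1 A01 t s k) (hr : IsRigidCl e k ξ)
    (hd : IsDegZero k ξ) :
    ∃ ζ : Cl k A0 A1 A01 t s k, IsRigidCl e k ζ ∧ IsDegZero k ζ ∧ ζ ^ n = ξ := by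
  obtain ⟨ζ, hζ⟩ := picZero_divisible_of_props S hdeg rep hprops n hn ⟨ξ, hr, hd⟩
  exact ⟨ζ.1, ζ.2.1, ζ.2.2, congrArg Subtype.val hζ⟩

end PicZero

/-! ### The S25 curve: `Pic⁰` of the function field -/

section Curve

open scoped TensorProduct
open AlgebraicCurve
open Fermat.Agent.JAC.Final
open Fermat.Agent.JAC.Core.Defs36 Fermat.Agent.JAC.Core.ConstFamily36
  Fermat.Agent.JAC.Core.AlgAtlas36 Fermat.Agent.JAC.Core.Degree36
  Fermat.Agent.JAC.Final.SchemeDict36 Fermat.Agent.JAC.Final.RelModel33
  Fermat.Agent.JAC.Final.CutDescent30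
  Fermat.Agent.JAC.Fibre.PicZero38 Fermat.Agent.JAC.Fibre.ConstExt37
  Fermat.Agent.JAC.Fibre.PicZeroFibre38
open Fermat.Agent.JAC.B2 Charts37 Domain37 Valuative37 TwoChart37 Export37 CurveBlock37 HGeom37
  FibreSetting37

variable {k : Type u} [Field k] [IsAlgClosed k] {C : Scheme.{u}}
  {c : C ⟶ Spec (CommRingCat.of k)} [IsProper c] [SmoothOfRelativeDimension 1 c] [IsIntegral C]
  {ε : SchemeHomOver (𝟙 (Spec (CommRingCat.of k))) c} {J : Scheme.{u}}

attribute [local instance] algK₀ algK₁ algK₀₁ alg₀ alg₁

/-- **`Pic⁰` of the function field of the fibre over `k` is `n`-divisible**, `(n : k) ≠ 0`, from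
the properties of a scheme representing the degree-zero cut, for two-chart data `D` of the
curve. -/
theorem pic0_divisible_fibre_of_props (D : TwoChartData c) (e : A₀₁ D →ₐ[k] k)
    (d : FibreDegree c)
    (S : SchemeDict (A₀ D) (A₁ D) (A₀₁ D) D.t D.s ε e d)
    (hdeg : DegAdditive k (A₀ D) (A₁ D) (A₀₁ D) D.t D.s)
    (rep : (G (degZeroCut d ε)).RepresentableBy J) (hprops : JacProps k (toBase rep))
    (n : ℕ) (hn : (n : k) ≠ 0) :
    haveI := isDedekindDomain_baseChange₀ D k
    haveI := isDedekindDomain_baseChange₁ D k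
    haveI := isDedekindDomain_baseChange₀₁ D k
    haveI := isFractionRing₀ (k := k) (A01 := A₀₁ D) D.t k
    haveI := isFractionRing₁ (k := k) (A01 := A₀₁ D) D.s k
    ∀ x : AlgebraicCurve.Pic0 k (FF k (A₀₁ D) k),
      ∃ y : AlgebraicCurve.Pic0 k (FF k (A₀₁ D) k), n • y = x :=
  pic0_divisible_fibre D k hdeg e n (picZero_divisible_of_props S hdeg rep hprops n hn)

/-- **`Pic⁰` of the function field `K(C)` of the curve is `n`-divisible**, `(n : k) ≠ 0`, for the
`k`-algebra structure `structureHomF c` of `K(C)`. -/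
theorem pic0_divisible_functionField (D : TwoChartData c) (e : A₀₁ D →ₐ[k] k)
    (d : FibreDegree c)
    (S : SchemeDict (A₀ D) (A₁ D) (A₀₁ D) D.t D.s ε e d)
    (hdeg : DegAdditive k (A₀ D) (A₁ D) (A₀₁ D) D.t D.s)
    (rep : (G (degZeroCut d ε)).RepresentableBy J) (hprops : JacProps k (toBase rep))
    (n : ℕ) (hn : (n : k) ≠ 0) :
    letI : Algebra k C.functionField := (structureHomF c).toAlgebra
    ∀ x : AlgebraicCurve.Pic0 k C.functionField,
      ∃ y : AlgebraicCurve.Pic0 k C.functionField, n • y = x := by
  letI : Algebra k C.functionField := (structureHomF c).toAlgebra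
  haveI := isDedekindDomain_baseChange₀₁ D k
  exact divisible_of_addEquiv
    (Fermat.Agent.JAC.Final27.TransportProof9.pic0EquivOfAlgEquiv (ffAlgEquiv D)) n
    (pic0_divisible_fibre_of_props D e d S hdeg rep hprops n hn)

/-- Divisibility of `Pic⁰(K(C))` for every pointed curve, from the chain statement
`Package38.ChainStatement` (the S25 chain with its objects exposed). -/
theorem pic0_divisible_functionField_of_chain
    (hchain : Fermat.Agent.JAC.Final27.Package38.ChainStatement.{u})
    (ε : SchemeHomOver (𝟙 (Spec (CommRingCat.of k))) c) (n : ℕ) (hn : (n : k) ≠ 0) :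
    letI : Algebra k C.functionField := (structureHomF c).toAlgebra
    ∀ x : AlgebraicCurve.Pic0 k C.functionField,
      ∃ y : AlgebraicCurve.Pic0 k C.functionField, n • y = x := by
  obtain ⟨D, e, d, S, hdeg, J, rep, hprops⟩ := hchain k c ε
  exact pic0_divisible_functionField D e d S hdeg rep hprops n hn

/-- The chain statement in its atlas form (the Jacobian is `jacRep` of the atlas of the scheme
dictionary) gives `Package38.ChainStatement`. -/
theorem chainStatement_of_atlas
    (H : ∀ (k : Type u) [Field k] [IsAlgClosed k] {C : Scheme.{u}}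
      (c : C ⟶ Spec (CommRingCat.of k)) [IsProper c] [SmoothOfRelativeDimension 1 c]
      [IsIntegral C] (ε : SchemeHomOver (𝟙 (Spec (CommRingCat.of k))) c),
      ∃ (D : TwoChartData c) (e : A₀₁ D →ₐ[k] k) (d : FibreDegree c)
        (S : SchemeDict (A₀ D) (A₁ D) (A₀₁ D) D.t D.s ε e d)
        (𝔸 : AlgAtlas k (A₀ D) (A₁ D) (A₀₁ D) D.t D.s e)
        (_ : DegAdditive k (A₀ D) (A₁ D) (A₀₁ D) D.t D.s),
        JacProps k
          (toBase (jacRep (cutDescent_degZeroCut (ε := ε) d) (SchemeDict36.atlas S 𝔸)))) :
    Fermat.Agent.JAC.Final27.Package38.ChainStatement.{u} := by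
  intro k _ _ C c _ _ _ ε
  obtain ⟨D, e, d, S, 𝔸, hdeg, hprops⟩ := H k c ε
  exact ⟨D, e, d, S, hdeg, _, jacRep (cutDescent_degZeroCut (ε := ε) d) (SchemeDict36.atlas S 𝔸),
    hprops⟩

end Curve

/-! ### Function fields of curves in the sense of S27 -/

section FunctionField

open AlgebraicCurve
open Fermat.Agent.X0.FF Fermat.Agent.JAC.FF.CurveScheme9 Fermat.Agent.JAC.FF.CurveFunctionField9

/-- **`Pic⁰(K, F)` is `n`-divisible** for every function field `F / K` satisfying the hypotheses
of S27 (one universe) and every `n ≠ 0`, from the chain statement.  No dimension of the Jacobian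
and no torsion count is involved. -/
theorem pic0_nsmul_surjective_of_chain
    (hchain : Fermat.Agent.JAC.Final27.Package38.ChainStatement.{u})
    (K F : Type u) [Field K] [Field F] [Algebra K F]
    [IsAlgClosed K] [CharZero K] [IsCurveOver K F] [Algebra.EssFiniteType K F]
    (n : ℕ) (hn : n ≠ 0) (c : Pic0 K F) : ∃ d : Pic0 K F, n • d = c := by
  obtain ⟨x, hx⟩ := Fermat.Agent.JAC.FF.Gen38.exists_isGen K F
  obtain ⟨ε, hε⟩ := exists_section hx
  haveI : SmoothOfRelativeDimension 1 (toBaseFF hx) :=
    smoothOfRelativeDimension_toBaseFF hx IsCurveOver.finrank_kaehler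
  have hnK : (n : K) ≠ 0 := Nat.cast_ne_zero.mpr hn
  letI := algebraFunctionField hx
  exact divisible_of_addEquiv
    (Fermat.Agent.JAC.Final27.TransportProof9.pic0EquivOfAlgEquiv (functionFieldAlgEquivFF hx)) n
    (pic0_divisible_functionField_of_chain hchain ⟨ε, hε⟩ n hnK) c

end FunctionField

end Fermat.Agent.JAC.Final27.PicDivisible63
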