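import Fermat.Agent.JAC.Final.AbelSchemeDict27
import Fermat.Agent.JAC.Final.SchemeDictCurve4
import Fermat.Agent.JAC.Abel.SurjBlock56
import Fermat.Agent.JAC.Final.JacData27
import Fermat.Agent.JAC.Final27.Package38
import Fermat.Agent.JAC.Final27.PicDivisible63

/-!
# JAC (S27 track / MW Div2), helper63: the exposed S25 chain from the algebraic atlas

`Final/S25Dry56.s25_of_algAtlas` (helper56) proves the statement of S25 from ONE open input, the
algebraic atlas of the chart team.  The S27 track (`Final27/Package38`, helper38) and the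
divisibility of `Pic⁰` (`Final27/PicDivisible63`) consume the same chain with its internal objects
exposed: `Package38.ChainStatement`.  This file proves it from the same single input, by the same
wiring, ending with `JacData27.props_of_schemeDict_twoCharts`.
-/

set_option autoImplicit false

universe u

open CategoryTheory CategoryTheory.Limits AlgebraicGeometry AlgebraicGeometry.RelPicard
  NeronModelInfra GoodReductionJacobian

namespace Fermat.Agent.JAC.Final27.ChainOfAtlas63

open Fermat.Agent.JAC.B2.TwoChart37 Fermat.Agent.JAC.B2.CurveBlock37 Fermat.Agent.JAC.B2.Export37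
  Fermat.Agent.JAC.B2.Adapter37
  Fermat.Agent.JAC.Core.AlgAtlas36
  Fermat.Agent.JAC.Final.SchemeDictCurve4
  Fermat.Agent.JAC.Final.AbelSchemeDict27
  Fermat.Agent.JAC.Abel.AbelBlock56 Fermat.Agent.JAC.Abel.SurjBlock56
  Fermat.Agent.JAC.Repr.Jacobian10 Fermat.Agent.JAC.Final.CutDescent30
  Fermat.Agent.JAC.Final.JacData27

attribute [local instance] algK₀ algK₁ algK₀₁ alg₀ alg₁

/-- The single open input of the final assembly of S25: an algebraic atlas for the pointed
two-chart data of every pointed curve. -/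
def AtlasStatement : Prop :=
  ∀ (k : Type u) [Field k] [IsAlgClosed k] {C : Scheme.{u}} (c : C ⟶ Spec (CommRingCat.of k))
    [IsProper c] [SmoothOfRelativeDimension 1 c] [IsIntegral C]
    (ε : SchemeHomOver (𝟙 (Spec (CommRingCat.of k))) c) (P : PointedTwoChartData c ε.1),
    Nonempty (AlgAtlas k (A₀ P.toTwoChartData) (A₁ P.toTwoChartData) (A₀₁ P.toTwoChartData)
      P.toTwoChartData.t P.toTwoChartData.s (e P ε.2))

/-- **The exposed S25 chain from the algebraic atlas.** -/
theorem chainStatement_of_algAtlas (hatlas : AtlasStatement.{u}) :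
    Fermat.Agent.JAC.Final27.Package38.ChainStatement.{u} := by
  intro k _ _ C c _ _ _ ε
  obtain ⟨P⟩ := nonempty_pointedTwoChartData_of_section ε
  obtain ⟨𝔸⟩ := hatlas k c ε P
  have hdeg : Fermat.Agent.JAC.Final.RelModel33.DegAdditive k (A₀ P.toTwoChartData)
      (A₁ P.toTwoChartData) (A₀₁ P.toTwoChartData) P.toTwoChartData.t P.toTwoChartData.s :=
    fun K _ _ _ x y =>
      Fermat.Agent.JAC.Fibre.DegAddFibre38.degClass_mul_fibre P.toTwoChartData K x y
  refine ⟨P.toTwoChartData, e P ε.2, fibreDegreeCurve ε P, schemeDictCurve ε P, hdeg, _,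
    jacRep (cutDescent_degZeroCut (ε := ε) (fibreDegreeCurve ε P))
      (Fermat.Agent.JAC.Final.SchemeDict36.atlas (schemeDictCurve ε P) 𝔸), ?_⟩
  exact props_of_schemeDict_twoCharts (schemeDictCurve ε P) 𝔸 hdeg
    (ι₀ P.toTwoChartData) (ι₁ P.toTwoChartData) (ι₀₁ P.toTwoChartData)
    (hι₀ P.toTwoChartData) (hι₁ P.toTwoChartData)
    (specMap_algebraMap_ι₀ P.toTwoChartData) (specMap_algebraMap_ι₁ P.toTwoChartData)
    (opensRange_sup P.toTwoChartData) (opensRange_inf P.toTwoChartData)
    (genus₀₁ P.toTwoChartData) (xi₀ P.toTwoChartData (e P ε.2)) (xi₁ P.toTwoChartData (e P ε.2))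
    (isRigidCl_xi₀ _ _) (isDegZero_xi₀ _ _) (isRigidCl_xi₁ _ _) (isDegZero_xi₁ _ _)
    (bc_xi₀_eq_bc_xi₁ _ _)
    (fun K _ _ _ z hr hz => hsurj₀₁ P.toTwoChartData (e P ε.2) K z hr hz)

/-- **`Pic⁰(K, F)` is `n`-divisible**, `n ≠ 0`, for every function field `F / K` satisfying the
hypotheses of S27 (one universe), from the algebraic atlas alone. -/
theorem pic0_nsmul_surjective_of_algAtlas (hatlas : AtlasStatement.{u})
    (K F : Type u) [Field K] [Field F] [Algebra K F]
    [IsAlgClosed K] [CharZero K] [AlgebraicCurve.IsCurveOver K F] [Algebra.EssFiniteType K F]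
    (n : ℕ) (hn : n ≠ 0) (c : AlgebraicCurve.Pic0 K F) :
    ∃ d : AlgebraicCurve.Pic0 K F, n • d = c :=
  Fermat.Agent.JAC.Final27.PicDivisible63.pic0_nsmul_surjective_of_chain
    (chainStatement_of_algAtlas hatlas) K F n hn c

end Fermat.Agent.JAC.Final27.ChainOfAtlas63
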