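/-
Programme JAC, S27 track, chapter Final27 (helper1): **divisibility of `Pic⁰(K, F)`** from a
Jacobian package (`Skeleton1.JacPackage`) and the divisibility of the group of `K`-points of an
abelian variety over an algebraically closed field (helper66's `AV/Divisible66`).

This is the corollary requested by the MW programme (S17, `Div2`).
-/
import Fermat.Agent.JAC.Final27.Skeleton1
import Fermat.Agent.JAC.AV.Divisible66
import Fermat.Agent.JAC.AV.Bridge66

set_option autoImplicit false

open CategoryTheory CategoryTheory.Limits AlgebraicGeometry NeronModelInfra GoodReductionJacobian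
open AlgebraicCurve

universe u

namespace Fermat.Agent.JAC.Final27.Divisible1

open Fermat.Agent.JAC.Final27.Skeleton1 Fermat.Agent.JAC.AV.Bridge66
  Fermat.Agent.JAC.AV.Divisible66

section

variable {K : Type u} [Field K] [IsAlgClosed K] {A : Scheme.{u}}
  {f : A ⟶ Spec (CommRingCat.of K)} (L : RelativeGroupLaw K f)

/-- Divisibility of the sections of an abelian variety over an algebraically closed field, in the
frozen vocabulary (`SchemeHomOver (𝟙 _) f`, `L.nsmul`). -/
theorem exists_nsmul_eq (hc : L.IsCommutative) (hA : AbelianSchemePropertyBundle K f) (n : ℕ)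
    (hn : (n : K) ≠ 0) (y : SchemeHomOver (𝟙 (Spec (CommRingCat.of K))) f) :
    ∃ x : SchemeHomOver (𝟙 (Spec (CommRingCat.of K))) f,
      L.nsmul (𝟙 (Spec (CommRingCat.of K))) n x = y := by
  obtain ⟨x, hx⟩ := exists_pow_eq L hc hA n hn (sectionEquiv L y)
  refine ⟨(sectionEquiv L).symm x, ?_⟩
  apply (sectionEquiv L).injective
  rw [sectionEquiv_nsmul, Equiv.apply_symm_apply, hx]

end

/-- **`Pic⁰(K, F)` is `n`-divisible** for `(n : K) ≠ 0`, given a Jacobian package. -/
theorem pic0_nsmul_surjective_of_package {K F : Type u} [Field K] [Field F] [Algebra K F]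
    [IsAlgClosed K] (hJ : JacPackage K F) (n : ℕ) (hn : (n : K) ≠ 0) (c : Pic0 K F) :
    ∃ d : Pic0 K F, n • d = c := by
  obtain ⟨J, f, L, hc, hA, -, e, he⟩ := hJ
  exact nsmul_surjective_of_points L e he n (exists_nsmul_eq L hc hA n hn) c

/-- The shape requested by the MW programme: `Pic⁰` of the function field of a curve over an
algebraically closed field of characteristic zero is divisible. -/
theorem pic0_nsmul_surjective (hpkg : PackageStatement.{u}) (K F : Type u) [Field K] [Field F]
    [Algebra K F] [IsAlgClosed K] [CharZero K] [IsCurveOver K F] [Algebra.EssFiniteType K F]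
    (n : ℕ) (hn : n ≠ 0) (c : Pic0 K F) : ∃ d : Pic0 K F, n • d = c :=
  pic0_nsmul_surjective_of_package (hpkg K F) n (Nat.cast_ne_zero.mpr hn) c

end Fermat.Agent.JAC.Final27.Divisible1
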