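import Mathlib
import Fermat.Agent.X0.FFDefs
import Fermat.Agent.JAC.FF.Gen38
import Fermat.Agent.MW.Weak.CurveInst21
import Fermat.Agent.JAC.Final27.ChainFinal63

/-!
# JAC / MAZ-WEIL adapter (helper63): finite extensions of function fields of curves

A finite extension `F'` of the function field `F` of a curve over an algebraically closed field
`K` of characteristic zero is again the function field of a curve in the sense of the Prelude
(`IsCurveOver K F'`, `Algebra.EssFiniteType K F'`): a transcendental generator of `F / K` is one of
`F' / K`.  Hence `Pic⁰(K, F')` is `n`-divisible for every `n ≠ 0`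
(`ChainFinal63.pic0_nsmul_surjective`).  This is the input "the Jacobian of the cyclic cover is
divisible" of the non-degeneracy of the Weil pairing via one Kummer cover.

Everything is a theorem (no global instance): use `haveI := isCurveOver_of_finite K F F'`.
-/

set_option autoImplicit false
set_option linter.style.haveILetI false

universe u

open AlgebraicCurve IntermediateField

namespace Fermat.Agent.JAC.Final27.FiniteExt63

open Fermat.Agent.X0.FF

section Gen

variable {K F F' : Type*} [Field K] [Field F] [Field F'] [Algebra K F] [Algebra K F']
  [Algebra F F'] [IsScalarTower K F F'] [FiniteDimensional F F']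

/-- A transcendental generator of `F / K` is a transcendental generator of every finite extension
`F'` of `F`. -/
theorem isGen_algebraMap {x : F} (hx : IsGen K x) : IsGen K (algebraMap F F' x) := by
  have hinj : Function.Injective (algebraMap F F') := (algebraMap F F').injective
  refine ⟨(transcendental_algebraMap_iff hinj).mpr hx.transcendental, ?_⟩
  haveI := hx.finite
  let f : F →ₐ[K] F' := IsScalarTower.toAlgHom K F F'
  have hmap : (K⟮x⟯).map f = K⟮algebraMap F F' x⟯ := by
    rw [IntermediateField.adjoin_map, Set.image_singleton]
    rfl
  haveI : Module.Finite K⟮x⟯ F' := Module.Finite.trans F F'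
  have h2 : Module.Finite ((K⟮x⟯).map f) F' := by
    refine Module.Finite.of_equiv_equiv (IntermediateField.equivMap K⟮x⟯ f).toRingEquiv
      (RingEquiv.refl F') ?_
    ext a
    rfl
  rw [hmap] at h2
  exact h2

end Gen

section Curve

/-- A finite extension of the function field of a curve is the function field of a curve. -/
theorem isCurveOver_of_finite (K F F' : Type u) [Field K] [Field F] [Field F'] [Algebra K F]
    [Algebra K F'] [Algebra F F'] [IsScalarTower K F F'] [FiniteDimensional F F']
    [IsAlgClosed K] [CharZero K] [IsCurveOver K F] [Algebra.EssFiniteType K F] :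
    IsCurveOver K F' := by
  obtain ⟨x, hx⟩ := Fermat.Agent.JAC.FF.Gen38.exists_isGen K F
  exact Fermat.Agent.MW.Weak.CurveInst21.isCurveOver_of_isGen (isGen_algebraMap (F' := F') hx)

/-- A finite extension of the function field of a curve is essentially of finite type. -/
theorem essFiniteType_of_finite (K F F' : Type u) [Field K] [Field F] [Field F'] [Algebra K F]
    [Algebra K F'] [Algebra F F'] [IsScalarTower K F F'] [FiniteDimensional F F']
    [IsAlgClosed K] [CharZero K] [IsCurveOver K F] [Algebra.EssFiniteType K F] :
    Algebra.EssFiniteType K F' := by
  obtain ⟨x, hx⟩ := Fermat.Agent.JAC.FF.Gen38.exists_isGen K F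
  exact Fermat.Agent.MW.Weak.CurveInst21.essFiniteType_of_isGen (isGen_algebraMap (F' := F') hx)

/-- **`Pic⁰` of a finite extension of the function field of a curve is `n`-divisible**, `n ≠ 0`
(the Jacobian of a cover of the curve is divisible). -/
theorem pic0_nsmul_surjective_of_finite (K F F' : Type u) [Field K] [Field F] [Field F']
    [Algebra K F] [Algebra K F'] [Algebra F F'] [IsScalarTower K F F'] [FiniteDimensional F F']
    [IsAlgClosed K] [CharZero K] [IsCurveOver K F] [Algebra.EssFiniteType K F]
    (n : ℕ) (hn : n ≠ 0) (c : Pic0 K F') : ∃ d : Pic0 K F', n • d = c := by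
  haveI := isCurveOver_of_finite K F F'
  haveI := essFiniteType_of_finite K F F'
  exact Fermat.Agent.JAC.Final27.ChainFinal63.pic0_nsmul_surjective K F' n hn c

end Curve

end Fermat.Agent.JAC.Final27.FiniteExt63
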