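/-
Programme JAC, S27 track, brick C5c (final form).  Owner: helper31.

`pointsStatement : Package38.PointsStatement`: the rational points of a scheme representing the
degree-zero cut of the S25 chain are, multiplicatively, the group `picZero hdeg e k` of rigid
classes of degree zero over the base field (`Final27/Points31.pointsEquiv` for the model
`RelModel33.relModel hdeg S`).
-/
import Fermat.Agent.JAC.Final27.Package38
import Fermat.Agent.JAC.Final27.Points31

set_option autoImplicit false

universe u

open CategoryTheory AlgebraicGeometry

namespace Fermat.Agent.JAC.Final27.PointsStatement31

open Fermat.Agent.JAC.Final27.Points31 Fermat.Agent.JAC.Final.RelModel33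

/-- **C5c**: the points statement of `Final27/Package38`. -/
theorem pointsStatement : Package38.PointsStatement.{u} := by
  intro k _ C c ε A0 A1 A01 _ _ _ _ _ _ _ _ _ _ t s _ _ e d hdeg S J rep
  exact ⟨pointsEquiv rep (relModel hdeg S),
    fun x y => pointsEquiv_mul rep (relModel hdeg S) x y⟩

end Fermat.Agent.JAC.Final27.PointsStatement31
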