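/-
Programme JAC, S27 track (helper31): the literal inputs `GenusStatement` and `PointsStatement`
of `Final27/Package38.packageStatement_of_statements`, plugged.

* `genusStatement : Package38.GenusStatement` (helper70's `GenusCurve70.exists_curve_linearMap`);
* `packageStatement_of_chain : Package38.ChainStatement → Skeleton1.PackageStatement`: the Jacobian
  package of the S27 skeleton from the S25 chain with its objects exposed alone.
-/
import Fermat.Agent.JAC.Final27.Package38
import Fermat.Agent.JAC.FF.GenusCurve70
import Fermat.Agent.JAC.Final27.PointsStatement31

set_option autoImplicit false

universe u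

namespace Fermat.Agent.JAC.Final27.GenusStatement31

/-- **C4 (genus)**: the genus statement of `Final27/Package38`. -/
theorem genusStatement : Package38.GenusStatement.{u} := by
  intro k _ _ _ A0 A1 A01 _ _ _ _ _ _ _ _ _ _ t s _ _ hts n0 n1 a0 a1 ha0 ha1 _ _ _
  exact Fermat.Agent.JAC.FF.GenusCurve70.exists_curve_linearMap t s hts ha0 ha1

/-- **The package statement of the S27 skeleton from the exposed S25 chain alone.** -/
theorem packageStatement_of_chain (hchain : Package38.ChainStatement.{u}) :
    Skeleton1.PackageStatement.{u} :=
  Package38.packageStatement_of_statements hchain genusStatement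
    PointsStatement31.pointsStatement

end Fermat.Agent.JAC.Final27.GenusStatement31
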