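/-
Programme JAC (S27 track, C6).  Owner: helper70.

The input `Package38.GenusStatement` of helper38's `Final27/Package38` (the Čech genus of CURVE data
is the adelic genus of its function field), from `FF/GenusCurve70.exists_curve_linearMap`.
-/
import Mathlib
import Fermat.Agent.JAC.Final27.Package38
import Fermat.Agent.JAC.FF.GenusCurve70

set_option autoImplicit false

universe u

namespace Fermat.Agent.JAC.Final27.GenusStatement70

/-- **`GenusStatement`.** -/
theorem genusStatement : Fermat.Agent.JAC.Final27.Package38.GenusStatement.{u} := by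
  intro k _ _ _ A0 A1 A01 _ _ _ _ _ _ _ _ _ _ t s _ _ hts n0 n1 a0 a1 ha0 ha1 _ _ _
  exact Fermat.Agent.JAC.FF.GenusCurve70.exists_curve_linearMap t s hts ha0 ha1

end Fermat.Agent.JAC.Final27.GenusStatement70
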