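/-
Programme JAC, S27 track, chapter Final27 (helper1): `Skeleton1.TransportStatement` holds, by
helper9's `FF/Transport9` (invariance of places, divisors, `Pic⁰`, torsion counts, the genus and
the curve hypotheses under isomorphisms of pairs `(K, F) ≃ (K', F')`).  Consequently the frozen S27
statement follows from the S26 statement and the Jacobian package statement alone.
-/
import Fermat.Agent.JAC.Final27.Skeleton1
import Fermat.Agent.JAC.FF.Transport9

set_option autoImplicit false

open AlgebraicCurve

universe u₁ u₂

namespace Fermat.Agent.JAC.Final27.Transport1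

open Fermat.Agent.JAC.Final27.Skeleton1 Fermat.Agent.JAC.FF.Transport9

/-- **The transport statement** (helper9's `Transport9`). -/
theorem transportStatement : TransportStatement.{u₁, u₂} := by
  intro K F K' F' _ _ _ _ _ _ σ τ hcomm
  let e : FieldIso K F K' F' := ⟨σ, τ, hcomm⟩
  exact ⟨fun n => e.natCard_torsion n, e.genusFF_eq, fun h => by have := h; exact e.isCurveOver,
    fun h => by have := h; exact e.essFiniteType⟩

/-- **The frozen S27 statement** from the S26 statement and the Jacobian package statement. -/
theorem s27_of_s26_of_package
    (h26 : ∀ (K : Type (max u₁ u₂)) [Field K] [IsAlgClosed K], S26Statement K)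
    (hpkg : PackageStatement.{max u₁ u₂})
    (K : Type u₁) (F : Type u₂) [Field K] [Field F] [Algebra K F] [IsAlgClosed K] [CharZero K]
    [IsCurveOver K F] [Algebra.EssFiniteType K F] (ℓ : ℕ) [Fact ℓ.Prime] (k : ℕ) :
    Nat.card (Pic0.torsion K F (ℓ ^ k)) = ℓ ^ (2 * genusFF K F * k) :=
  s27_of_statements h26 hpkg transportStatement K F ℓ k

end Fermat.Agent.JAC.Final27.Transport1
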